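/-
helper19 — MW / DIV-C: shared definitions (interface file, no hard proofs).

`F = FNK ℂ N` is the function field of `X₀(N)` over `ℂ`, `G = Aut(ℂ/ℚ)` acts on it
coefficientwise through `rho N` (the Prelude `arithmeticGalois`).  For an intermediate field
`M` of `ℂ/ℚ` the group `Γ_M` is `M.fixingSubgroup`.
-/
import Mathlib
import Fermat.Agent.ESJ.Jac.FinDimK

set_option autoImplicit false

open AlgebraicCurve ModularCurve

noncomputable section

namespace Fermat.Agent.MW.DivC

open Fermat.Agent.ESJ.Jac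

/-- The coefficientwise action of `Aut(ℂ/ℚ)` on `F_ℂ = ℂ·F_N` (and hence on its places,
divisors and classes). -/
abbrev rho (N : ℕ) : (ℂ ≃ₐ[ℚ] ℂ) →* SemilinearAut ℂ (FNK ℂ N) :=
  arithmeticGalois (modularFunctionFieldFull N)

/-- `f` takes the value `c` at the place `P` (`f - c` lies in the maximal ideal of `P`). -/
def Val {N : ℕ} (P : Place ℂ (FNK ℂ N)) (f : FNK ℂ N) (c : ℂ) : Prop :=
  P.adicValuation (f - algebraMap ℂ (FNK ℂ N) c) < 1

/-- The algebraic closure of `ℚ` in `ℂ`. -/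
abbrev Qbar : IntermediateField ℚ ℂ := algebraicClosure ℚ ℂ

/-- The algebraic closure in `ℂ` of the field generated by a set `T`. -/
def algCl (T : Set ℂ) : IntermediateField ℚ ℂ :=
  (algebraicClosure (IntermediateField.adjoin ℚ T) ℂ).restrictScalars ℚ

theorem mem_algCl_iff {T : Set ℂ} {x : ℂ} :
    x ∈ algCl T ↔ IsAlgebraic (IntermediateField.adjoin ℚ T) x := by
  unfold algCl
  rw [IntermediateField.mem_restrictScalars, mem_algebraicClosure_iff]

/-- `f ∈ F_ℂ` has all its `q`-coefficients in `M`. -/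
def IsRat {N : ℕ} (M : IntermediateField ℚ ℂ) (f : FNK ℂ N) : Prop :=
  ∀ k : ℤ, (f : LaurentSeries ℂ).coeff k ∈ M

/-- The sum of a tuple of places, as a divisor. -/
def tsum {N : ℕ} {g : ℕ} (P : Fin g → Place ℂ (FNK ℂ N)) : Divisor ℂ (FNK ℂ N) :=
  ∑ i, Finsupp.single (P i) (1 : ℤ)

/-- Linear equivalence of divisors of `F_ℂ`. -/
def LinEq {N : ℕ} (D E : Divisor ℂ (FNK ℂ N)) : Prop :=
  D - E ∈ Divisor.principal (K := ℂ) (F := FNK ℂ N)

/-- A **generic tuple**: places whose `j`-values are algebraically independent over `ℚ`. -/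
def IsGeneric {N : ℕ} [NeZero N] {g : ℕ} (P : Fin g → Place ℂ (FNK ℂ N)) (t : Fin g → ℂ) : Prop :=
  AlgebraicIndependent ℚ t ∧ ∀ i, Val (P i) (jBarK ℂ N) (t i)

end Fermat.Agent.MW.DivC
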