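/-
helper84 — MW / DIV-C, row 426 (DIVC-5 Field).

Field theory of `algCl T` (the algebraic closure in `ℂ` of `ℚ(T)`) and of algebraic independence
over `ℚ` in `ℂ`:

* `isAlgClosed_algCl`, `isAlgClosed_Qbar`, `subset_algCl`, `qbar_le_algCl`, `countable_algCl`;
* `exists_algebraicIndependent` : `ℂ` contains `g` algebraically independent elements;
* `not_mem_algCl_of_algebraicIndependent` : `t i` is transcendental over the earlier `t k`;
* `exchange` : an algebraically independent `g`-tuple algebraic over `ℚ(T)`, `#T ≤ g`, forces `T`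
  to be `g` algebraically independent elements;
* `mem_of_finite_orbit'` : finite orbit under `Γ_M`, `M` algebraically closed, implies membership.
-/
import Mathlib
import Fermat.Agent.MW.DivC.Defs
import Fermat.Agent.MW.Div.AutField

set_option autoImplicit false

noncomputable section

namespace Fermat.Agent.MW.DivC.Field

open Fermat.Agent.MW.DivC Cardinal

/-! ### `algCl T` is algebraically closed, contains `T` and `Qbar`, and is countable with `T` -/

instance isAlgClosed_Qbar : IsAlgClosed Qbar :=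
  (algebraicClosure.isAlgClosure ℚ ℂ).isAlgClosed

instance isAlgClosed_algCl (T : Set ℂ) : IsAlgClosed (algCl T) :=
  (algebraicClosure.isAlgClosure (IntermediateField.adjoin ℚ T) ℂ).isAlgClosed

theorem subset_algCl (T : Set ℂ) : T ⊆ algCl T := by
  intro x hx
  rw [SetLike.mem_coe, mem_algCl_iff]
  exact isAlgebraic_algebraMap
    (⟨x, IntermediateField.subset_adjoin ℚ T hx⟩ : IntermediateField.adjoin ℚ T)

theorem qbar_le_algCl (T : Set ℂ) : Qbar ≤ algCl T := by
  intro x hx
  rw [mem_algCl_iff]
  have hx' : IsAlgebraic ℚ x := mem_algebraicClosure_iff.1 hx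
  exact hx'.tower_top _

instance countable_algCl (T : Set ℂ) [Countable T] : Countable (algCl T) := by
  have h1 : #(IntermediateField.adjoin ℚ T) ≤ ℵ₀ := by
    refine (IntermediateField.cardinalMk_adjoin_le ℚ T).trans ?_
    simp [Cardinal.mk_le_aleph0]
  have : Countable (IntermediateField.adjoin ℚ T) := Cardinal.mk_le_aleph0_iff.1 h1
  have h2 : #(algebraicClosure (IntermediateField.adjoin ℚ T) ℂ) ≤ ℵ₀ := by
    refine (Algebra.IsAlgebraic.cardinalMk_le_max (IntermediateField.adjoin ℚ T)
      (algebraicClosure (IntermediateField.adjoin ℚ T) ℂ)).trans ?_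
    simp
  exact Cardinal.mk_le_aleph0_iff.1 h2

/-! ### Algebraic independence in `ℂ` over `ℚ` -/

theorem exists_algebraicIndependent (g : ℕ) : ∃ t : Fin g → ℂ, AlgebraicIndependent ℚ t := by
  obtain ⟨ι, v, hv⟩ := exists_isTranscendenceBasis' ℚ ℂ
  have hc := IsAlgClosed.cardinal_eq_cardinal_transcendence_basis_of_aleph0_lt v hv
    (by simp) (by rw [Cardinal.mk_complex]; exact Cardinal.aleph0_lt_continuum)
  rw [Cardinal.lift_id, Cardinal.lift_id] at hc
  have hinf : Infinite ι := by
    rw [Cardinal.infinite_iff, ← hc, Cardinal.mk_complex]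
    exact Cardinal.aleph0_le_continuum
  exact ⟨fun i => v (Infinite.natEmbedding ι i),
    hv.1.comp _ ((Infinite.natEmbedding ι).injective.comp Fin.val_injective)⟩

theorem not_mem_algCl_of_algebraicIndependent {g : ℕ} {t : Fin g → ℂ}
    (ht : AlgebraicIndependent ℚ t) (i : Fin g) : t i ∉ algCl (t '' {k | k < i}) := by
  rw [mem_algCl_iff, IntermediateField.isAlgebraic_adjoin_iff]
  exact ht.transcendental_adjoin (by simp)

theorem exchange {g : ℕ} {t : Fin g → ℂ} (ht : AlgebraicIndependent ℚ t) (T : Finset ℂ)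
    (hT : T.card ≤ g) (h : ∀ i, t i ∈ algCl (T : Set ℂ)) :
    ∃ e : Fin g ≃ T, AlgebraicIndependent ℚ (fun i => (e i : ℂ)) := by
  classical
  have hI : (AlgebraicIndependent.matroid ℚ ℂ).Indep (Set.range t) :=
    AlgebraicIndependent.matroid_indep_iff.2 ht.to_subtype_range
  have hsub : Set.range t ⊆ (AlgebraicIndependent.matroid ℚ ℂ).closure (T : Set ℂ) := by
    rintro _ ⟨i, rfl⟩
    rw [AlgebraicIndependent.matroid_closure_eq]
    have := h i
    rw [mem_algCl_iff, IntermediateField.isAlgebraic_adjoin_iff] at this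
    exact this
  have h1 : (Set.range t).encard = g := by
    rw [← Set.image_univ, ht.injective.encard_image]
    simp
  have h2 : (AlgebraicIndependent.matroid ℚ ℂ).eRk (Set.range t) ≤
      (AlgebraicIndependent.matroid ℚ ℂ).eRk (T : Set ℂ) := by
    rw [← (AlgebraicIndependent.matroid ℚ ℂ).eRk_closure_eq (T : Set ℂ)]
    exact (AlgebraicIndependent.matroid ℚ ℂ).eRk_mono hsub
  have h3 := (AlgebraicIndependent.matroid ℚ ℂ).eRk_le_encard (T : Set ℂ)
  have h4 : (T : Set ℂ).encard = T.card := Set.encard_coe_eq_coe_finsetCard T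
  have h5 : (g : ℕ∞) ≤ (T.card : ℕ∞) := by
    rw [← h1, ← hI.eRk_eq_encard, ← h4]
    exact h2.trans h3
  have hTg : T.card = g := le_antisymm hT (by exact_mod_cast h5)
  have hTind : (AlgebraicIndependent.matroid ℚ ℂ).Indep (T : Set ℂ) := by
    rw [Matroid.indep_iff_eRk_eq_encard_of_finite T.finite_toSet]
    refine le_antisymm h3 ?_
    rw [h4, hTg, ← h1, ← hI.eRk_eq_encard]
    exact h2
  have hTind' : AlgebraicIndependent ℚ (fun x : T => (x : ℂ)) :=
    AlgebraicIndependent.matroid_indep_iff.1 hTind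
  have hcard : Fintype.card (Fin g) = Fintype.card T := by
    rw [Fintype.card_fin, Fintype.card_coe, hTg]
  let e : Fin g ≃ T := Fintype.equivOfCardEq hcard
  exact ⟨e, hTind'.comp e e.injective⟩

/-! ### Finite orbits -/

theorem mem_of_finite_orbit' (M : IntermediateField ℚ ℂ) [IsAlgClosed M] (x : ℂ)
    (h : {y | ∃ σ ∈ M.fixingSubgroup, σ x = y}.Finite) : x ∈ M := by
  apply Fermat.Agent.MW.Div.AutField.mem_of_finite_orbit M x
  refine h.subset ?_
  rintro y ⟨σ, hσ, rfl⟩
  exact ⟨σ, (IntermediateField.mem_fixingSubgroup_iff M σ).2 hσ, rfl⟩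

end Fermat.Agent.MW.DivC.Field
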