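/-
helper19 — MW / DIV-C, brick DIVC-1: values of functions at places of `F_ℂ`, Galois equivariance,
finite fibres of `j`, a Galois-fixed base place.
-/
import Mathlib
import Fermat.Agent.MW.DivC.Defs
import Fermat.Agent.Lib.FF.GenPos
import Fermat.Agent.Lib.Descent.KummerFF
import Fermat.Agent.ESJ.Jac.DescentOf

set_option autoImplicit false
set_option linter.unusedSectionVars false

open AlgebraicCurve ModularCurve WithZero

noncomputable section

namespace Fermat.Agent.MW.DivC.Values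

open Fermat.Agent.ESJ.Jac Fermat.Agent.MW.DivC Fermat.Agent.Lib.FF

variable (N : ℕ) [NeZero N]

/-- `F_ℂ` is a function field of one variable over `ℂ` in the sense of `Lib/FF`. -/
theorem isFF1_C : IsFF1 ℂ (FNK ℂ N) (jBarK ℂ N) :=
  haveI := FinDimK.finiteDimensional_jBarK ℂ N
  isFF1_of_charZero (jBarK ℂ N) (FinDimK.transcendental_jBarK ℂ N)

variable {N}

/-! ### The value calculus -/

theorem val_iff {P : Place ℂ (FNK ℂ N)} {f : FNK ℂ N} {c : ℂ} :
    Val P f c ↔ f - algebraMap ℂ (FNK ℂ N) c = 0 ∨ 0 < P.ord (f - algebraMap ℂ (FNK ℂ N) c) := by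
  unfold Val
  rcases eq_or_ne (f - algebraMap ℂ (FNK ℂ N) c) 0 with h | h
  · simp [h]
  · rw [P.adicValuation_eq_exp_neg_ord h, or_iff_right h, ← exp_zero, exp_lt_exp]
    omega

theorem val_algebraMap (P : Place ℂ (FNK ℂ N)) (c : ℂ) : Val P (algebraMap ℂ (FNK ℂ N) c) c := by
  unfold Val
  simp

theorem val_zero (P : Place ℂ (FNK ℂ N)) : Val P (0 : FNK ℂ N) 0 := by
  simpa using val_algebraMap P 0

theorem val_one (P : Place ℂ (FNK ℂ N)) : Val P (1 : FNK ℂ N) 1 := by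
  simpa using val_algebraMap P 1

theorem val_add {P : Place ℂ (FNK ℂ N)} {f g : FNK ℂ N} {a b : ℂ} (hf : Val P f a)
    (hg : Val P g b) : Val P (f + g) (a + b) := by
  unfold Val at *
  have e : f + g - algebraMap ℂ (FNK ℂ N) (a + b)
      = (f - algebraMap ℂ (FNK ℂ N) a) + (g - algebraMap ℂ (FNK ℂ N) b) := by
    rw [map_add]; ring
  rw [e]
  exact lt_of_le_of_lt (P.adicValuation.map_add _ _) (max_lt hf hg)

theorem val_neg {P : Place ℂ (FNK ℂ N)} {f : FNK ℂ N} {a : ℂ} (hf : Val P f a) :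
    Val P (-f) (-a) := by
  unfold Val at *
  have e : -f - algebraMap ℂ (FNK ℂ N) (-a) = -(f - algebraMap ℂ (FNK ℂ N) a) := by
    rw [map_neg]; ring
  rw [e, Valuation.map_neg]
  exact hf

theorem val_sub {P : Place ℂ (FNK ℂ N)} {f g : FNK ℂ N} {a b : ℂ} (hf : Val P f a)
    (hg : Val P g b) : Val P (f - g) (a - b) := by
  rw [sub_eq_add_neg, sub_eq_add_neg]
  exact val_add hf (val_neg hg)

theorem val_mul {P : Place ℂ (FNK ℂ N)} {f g : FNK ℂ N} {a b : ℂ} (hf : Val P f a)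
    (hg : Val P g b) : Val P (f * g) (a * b) := by
  unfold Val at *
  have e : f * g - algebraMap ℂ (FNK ℂ N) (a * b)
      = (f - algebraMap ℂ (FNK ℂ N) a) * (g - algebraMap ℂ (FNK ℂ N) b)
        + (algebraMap ℂ (FNK ℂ N) a * (g - algebraMap ℂ (FNK ℂ N) b)
          + algebraMap ℂ (FNK ℂ N) b * (f - algebraMap ℂ (FNK ℂ N) a)) := by
    rw [map_mul]; ring
  rw [e]
  refine lt_of_le_of_lt (P.adicValuation.map_add _ _) (max_lt ?_ ?_)
  · rw [map_mul]
    exact mul_lt_one_of_nonneg_of_lt_one_left zero_le hf hg.le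
  · refine lt_of_le_of_lt (P.adicValuation.map_add _ _) (max_lt ?_ ?_)
    · rw [map_mul]
      exact mul_lt_one_of_nonneg_of_lt_one_right (P.adicValuation_algebraMap_le_one a) zero_le hg
    · rw [map_mul]
      exact mul_lt_one_of_nonneg_of_lt_one_right (P.adicValuation_algebraMap_le_one b) zero_le hf

theorem adicValuation_algebraMap_eq_one (P : Place ℂ (FNK ℂ N)) {c : ℂ} (hc : c ≠ 0) :
    P.adicValuation (algebraMap ℂ (FNK ℂ N) c) = 1 := by
  have h0 : algebraMap ℂ (FNK ℂ N) c ≠ 0 := by simpa using hc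
  rw [P.adicValuation_eq_exp_neg_ord h0, Fermat.Agent.S24.ord_algebraMap P c]
  simp

theorem val_unique {P : Place ℂ (FNK ℂ N)} {f : FNK ℂ N} {c c' : ℂ} (h : Val P f c)
    (h' : Val P f c') : c = c' := by
  by_contra hne
  have h1 := val_sub h h'
  rw [sub_self] at h1
  unfold Val at h1
  rw [zero_sub, Valuation.map_neg, adicValuation_algebraMap_eq_one P (sub_ne_zero.mpr hne)] at h1
  exact lt_irrefl _ h1

theorem ord_nonneg_of_val {P : Place ℂ (FNK ℂ N)} {f : FNK ℂ N} {c : ℂ} (h : Val P f c) :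
    0 ≤ P.ord f := by
  have h1 : P.adicValuation f ≤ 1 := by
    have e : f = (f - algebraMap ℂ (FNK ℂ N) c) + algebraMap ℂ (FNK ℂ N) c := by ring
    rw [e]
    exact le_trans (P.adicValuation.map_add _ _)
      (max_le (le_of_lt h) (P.adicValuation_algebraMap_le_one c))
  rcases P.adicValuation_le_one_iff.mp h1 with h0 | h0
  · rw [h0]; simp
  · exact h0

theorem val_zero_iff {P : Place ℂ (FNK ℂ N)} {f : FNK ℂ N} :
    Val P f 0 ↔ f = 0 ∨ 0 < P.ord f := by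
  rw [val_iff]
  simp

theorem ord_eq_zero_of_val {P : Place ℂ (FNK ℂ N)} {f : FNK ℂ N} {c : ℂ} (h : Val P f c)
    (hc : c ≠ 0) : P.ord f = 0 := by
  have h0 := ord_nonneg_of_val h
  by_contra hne
  have hpos : 0 < P.ord f := lt_of_le_of_ne h0 (Ne.symm hne)
  have h2 : Val P f 0 := val_zero_iff.mpr (Or.inr hpos)
  exact hc (val_unique h h2)

theorem exists_val_of_ord_nonneg (P : Place ℂ (FNK ℂ N)) {f : FNK ℂ N} (hf : 0 ≤ P.ord f) :
    ∃ c, Val P f c := by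
  have hmem : f ∈ P.toValuationSubring := Fermat.Agent.S24.mem_of_ord_nonneg P hf
  obtain ⟨c, hc⟩ := (isFF1_C N).resK P ⟨f, hmem⟩
  refine ⟨c, ?_⟩
  unfold Val
  have h1 := RR.val_le_exp_neg_one_of_mem_maximalIdeal P _ hc
  refine lt_of_le_of_lt h1 ?_
  rw [← exp_zero, exp_lt_exp]
  norm_num

theorem exists_val_or_pole (P : Place ℂ (FNK ℂ N)) (f : FNK ℂ N) :
    (∃ c, Val P f c) ∨ P.ord f < 0 := by
  by_cases h : 0 ≤ P.ord f
  · exact Or.inl (exists_val_of_ord_nonneg P h)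
  · exact Or.inr (not_le.mp h)

/-! ### Galois equivariance -/

theorem rho_smul_algebraMap (σ : ℂ ≃ₐ[ℚ] ℂ) (c : ℂ) :
    rho N σ • algebraMap ℂ (FNK ℂ N) c = algebraMap ℂ (FNK ℂ N) (σ c) :=
  SemilinearAut.smul_algebraMap (rho N σ) c

theorem val_smul (σ : ℂ ≃ₐ[ℚ] ℂ) {P : Place ℂ (FNK ℂ N)} {f : FNK ℂ N} {c : ℂ} :
    Val (rho N σ • P) (rho N σ • f) (σ c) ↔ Val P f c := by
  rw [val_iff, val_iff, ← rho_smul_algebraMap, ← smul_sub, SemilinearAut.ord_smul, smul_eq_zero_iff_eq]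

theorem val_smul_of_val (σ : ℂ ≃ₐ[ℚ] ℂ) {P : Place ℂ (FNK ℂ N)} {f : FNK ℂ N} {c : ℂ}
    (h : Val P f c) : Val (rho N σ • P) (rho N σ • f) (σ c) :=
  (val_smul σ).mpr h

theorem coe_rho_smul (σ : ℂ ≃ₐ[ℚ] ℂ) (f : FNK ℂ N) :
    ((rho N σ • f : FNK ℂ N) : LaurentSeries ℂ) = coeffMap (σ : ℂ →+* ℂ) (f : LaurentSeries ℂ) :=
  rfl

theorem rho_smul_of_isRat {M : IntermediateField ℚ ℂ} {f : FNK ℂ N} (hf : IsRat M f)
    {σ : ℂ ≃ₐ[ℚ] ℂ} (hσ : σ ∈ M.fixingSubgroup) : rho N σ • f = f := by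
  apply Subtype.ext
  rw [coe_rho_smul]
  ext k
  rw [coeffMap_coeff]
  exact (IntermediateField.mem_fixingSubgroup_iff M σ).mp hσ _ (hf k)

variable (N) in
theorem isRat_jBarK (M : IntermediateField ℚ ℂ) : IsRat M (jBarK ℂ N) := by
  intro k
  have h0 : ((jBarK ℂ N : FNK ℂ N) : LaurentSeries ℂ) = coeffEmb ℂ (qExpand ℚ 1 jq) := rfl
  rw [h0]
  have : (coeffEmb ℂ (qExpand ℚ 1 jq)).coeff k = algebraMap ℚ ℂ ((qExpand ℚ 1 jq).coeff k) := rfl
  rw [this]
  exact M.algebraMap_mem _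

variable (N) in
theorem rho_smul_jBarK (σ : ℂ ≃ₐ[ℚ] ℂ) : rho N σ • jBarK ℂ N = jBarK ℂ N :=
  rho_smul_of_isRat (isRat_jBarK N ⊥) (by
    rw [IntermediateField.mem_fixingSubgroup_iff]
    intro x hx
    obtain ⟨q, rfl⟩ := IntermediateField.mem_bot.mp hx
    exact σ.commutes q)

theorem val_jBarK_smul (σ : ℂ ≃ₐ[ℚ] ℂ) {P : Place ℂ (FNK ℂ N)} {t : ℂ}
    (h : Val P (jBarK ℂ N) t) : Val (rho N σ • P) (jBarK ℂ N) (σ t) := by
  have := val_smul_of_val σ h
  rwa [rho_smul_jBarK] at this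

theorem ord_jBarK_smul (σ : ℂ ≃ₐ[ℚ] ℂ) (P : Place ℂ (FNK ℂ N)) :
    (rho N σ • P).ord (jBarK ℂ N) = P.ord (jBarK ℂ N) := by
  have := SemilinearAut.ord_smul (rho N σ) P (jBarK ℂ N)
  rwa [rho_smul_jBarK] at this

/-! ### Finite fibres -/

theorem finite_ord_ne_zero {f : FNK ℂ N} (hf : f ≠ 0) :
    {P : Place ℂ (FNK ℂ N) | P.ord f ≠ 0}.Finite := by
  have := (isFF1_C N).hasPrincipalDivisors
  obtain ⟨D, hD, -⟩ := HasPrincipalDivisors.exists_divisor (K := ℂ) f hf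
  refine D.support.finite_toSet.subset ?_
  intro P hP
  rw [Finset.mem_coe, Finsupp.mem_support_iff, hD P]
  exact hP

variable (N) in
theorem jBarK_sub_ne_zero (t : ℂ) : jBarK ℂ N - algebraMap ℂ (FNK ℂ N) t ≠ 0 := by
  intro h0
  exact (FinDimK.transcendental_jBarK ℂ N) (sub_eq_zero.mp h0 ▸ isAlgebraic_algebraMap t)

variable (N) in
theorem finite_val_jBarK (t : ℂ) : {P : Place ℂ (FNK ℂ N) | Val P (jBarK ℂ N) t}.Finite := by
  refine (finite_ord_ne_zero (jBarK_sub_ne_zero N t)).subset ?_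
  intro P hP
  rw [Set.mem_setOf_eq, val_iff] at hP
  rcases hP with h | h
  · exact absurd h (jBarK_sub_ne_zero N t)
  · exact ne_of_gt h

variable (N) in
theorem finite_pole_jBarK : {P : Place ℂ (FNK ℂ N) | P.ord (jBarK ℂ N) < 0}.Finite := by
  have hj : jBarK ℂ N ≠ 0 := by simpa using jBarK_sub_ne_zero N 0
  refine (finite_ord_ne_zero hj).subset ?_
  intro P hP
  exact ne_of_lt hP

variable (N) in
theorem exists_place_val (t : ℂ) : ∃ P : Place ℂ (FNK ℂ N), Val P (jBarK ℂ N) t := by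
  obtain ⟨P, hP⟩ := (isFF1_C N).exists_zero_sub t
  exact ⟨P, val_iff.mpr (Or.inr hP)⟩

/-! ### A Galois-fixed place: the `q`-order place -/

variable (N) in
/-- The place of `F_ℂ` given by the `q`-order is fixed by all of `Aut(ℂ/ℚ)`. -/
theorem exists_fixed_place :
    ∃ P₀ : Place ℂ (FNK ℂ N), ∀ σ : ℂ ≃ₐ[ℚ] ℂ, rho N σ • P₀ = P₀ := by
  have hw := Fermat.Agent.Lib.Descent.isRawVal_order
    (laurentBaseChange ℂ (modularFunctionFieldFull N))
  have hnt : ∃ f : FNK ℂ N, f ≠ 0 ∧ (f : LaurentSeries ℂ).order ≠ 0 := by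
    refine ⟨jBarK ℂ N, ?_, order_jBarK_ne_zero ℂ N⟩
    simpa using jBarK_sub_ne_zero N 0
  refine ⟨hw.place hnt, fun σ => ?_⟩
  apply Place.ext
  rw [SemilinearAut.smul_toValuationSubring, Fermat.Agent.S24.Counting.IsRawVal.place_toValuationSubring]
  ext x
  rw [ValuationSubring.mem_pointwise_smul_iff_inv_smul_mem]
  have key : ∀ y : FNK ℂ N, y ∈ hw.valSubring ↔ (y = 0 ∨ 0 ≤ (y : LaurentSeries ℂ).order) :=
    fun y => Iff.rfl
  rw [key, key, ← map_inv, coe_rho_smul, Fermat.Agent.Lib.Descent.order_coeffMap, smul_eq_zero_iff_eq]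

/-! ### Divisors: tuple sums and linear equivalence -/

theorem rho_smul_tsum (σ : ℂ ≃ₐ[ℚ] ℂ) {g : ℕ} (P : Fin g → Place ℂ (FNK ℂ N)) :
    rho N σ • tsum P = tsum (fun i => rho N σ • P i) := by
  unfold tsum
  rw [Finset.smul_sum]
  exact Finset.sum_congr rfl fun i _ => SemilinearAut.smul_single (rho N σ) (P i) 1

theorem linEq_refl (D : Divisor ℂ (FNK ℂ N)) : LinEq D D := by
  unfold LinEq
  rw [sub_self]
  exact zero_mem _

theorem linEq_symm {D E : Divisor ℂ (FNK ℂ N)} (h : LinEq D E) : LinEq E D := by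
  unfold LinEq at *
  rw [← neg_sub]
  exact neg_mem h

theorem linEq_trans {D E G : Divisor ℂ (FNK ℂ N)} (h : LinEq D E) (h' : LinEq E G) :
    LinEq D G := by
  unfold LinEq at *
  rw [← sub_add_sub_cancel D E G]
  exact add_mem h h'

theorem linEq_add {D E D' E' : Divisor ℂ (FNK ℂ N)} (h : LinEq D E) (h' : LinEq D' E') :
    LinEq (D + D') (E + E') := by
  unfold LinEq at *
  rw [add_sub_add_comm]
  exact add_mem h h'

theorem linEq_neg {D E : Divisor ℂ (FNK ℂ N)} (h : LinEq D E) : LinEq (-D) (-E) := by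
  unfold LinEq at *
  rw [← neg_sub', ]
  exact neg_mem h

theorem linEq_sub {D E D' E' : Divisor ℂ (FNK ℂ N)} (h : LinEq D E) (h' : LinEq D' E') :
    LinEq (D - D') (E - E') := by
  rw [sub_eq_add_neg, sub_eq_add_neg]
  exact linEq_add h (linEq_neg h')

theorem linEq_nsmul {D E : Divisor ℂ (FNK ℂ N)} (h : LinEq D E) (m : ℕ) :
    LinEq (m • D) (m • E) := by
  unfold LinEq at *
  rw [← smul_sub]
  exact nsmul_mem h m

theorem linEq_smul {D E : Divisor ℂ (FNK ℂ N)} (h : LinEq D E) (σ : ℂ ≃ₐ[ℚ] ℂ) :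
    LinEq (rho N σ • D) (rho N σ • E) := by
  unfold LinEq at *
  rw [← smul_sub]
  exact SemilinearAut.smul_mem_principal (rho N σ) h

theorem linEq_iff {D E : Divisor ℂ (FNK ℂ N)} :
    LinEq D E ↔ ∃ f : FNK ℂ N, f ≠ 0 ∧ ∀ v : Place ℂ (FNK ℂ N), D v = E v + v.ord f := by
  unfold LinEq
  rw [Divisor.mem_principal]
  constructor
  · rintro ⟨f, hf, h⟩
    refine ⟨f, hf, fun v => ?_⟩
    have := h v
    rw [Finsupp.sub_apply] at this
    omega
  · rintro ⟨f, hf, h⟩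
    refine ⟨f, hf, fun v => ?_⟩
    rw [Finsupp.sub_apply, h v]
    ring

end Fermat.Agent.MW.DivC.Values
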