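/-
helper19 — MW / DIV-C, brick DIVC-2: rational functions separate the places of `F_ℂ`, and the
automorphisms of `ℂ` fixing an algebraically closed subfield `M` fix every place whose `j`-value
lies in `M` (or which is a pole of `j`).
-/
import Mathlib
import Fermat.Agent.MW.DivC.Values
import Fermat.Agent.MW.DivC.Field
import Fermat.Agent.Lib.Descent.Laurent

set_option autoImplicit false
set_option linter.unusedSectionVars false

open AlgebraicCurve ModularCurve WithZero

noncomputable section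

namespace Fermat.Agent.MW.DivC.Sep

open Fermat.Agent.ESJ.Jac Fermat.Agent.MW.DivC Fermat.Agent.Lib.FF Fermat.Agent.MW.DivC.Values

variable {N : ℕ} [NeZero N]

/-- A semilinear automorphism maps `L(D)` into `L(g • D)`. -/
theorem smul_mem_L (g : SemilinearAut ℂ (FNK ℂ N)) {D : Divisor ℂ (FNK ℂ N)} {f : FNK ℂ N}
    (hf : f ∈ riemannRochSpace D) : g • f ∈ riemannRochSpace (g • D) := by
  rw [mem_riemannRochSpace_iff] at hf ⊢
  intro v
  rcases hf (g⁻¹ • v) with h | h
  · left; rw [h, smul_zero]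
  · right
    have h1 := SemilinearAut.ord_smul g (g⁻¹ • v) f
    rw [smul_inv_smul] at h1
    rw [SemilinearAut.divisor_smul_apply, h1]
    exact h

/-- Every algebraically closed intermediate field contains the algebraic numbers. -/
theorem qbar_le (M : IntermediateField ℚ ℂ) [IsAlgClosed M] : Qbar ≤ M := by
  intro x hx
  have hx' : IsAlgebraic ℚ x := (mem_algebraicClosure_iff (F := ℚ) (E := ℂ)).mp hx
  have hxM : IsAlgebraic M x := hx'.tower_top M
  obtain ⟨y, hy⟩ := Fermat.Agent.Lib.Descent.mem_range_of_isIntegral (K := M) hxM.isIntegral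
  rw [← hy]
  exact y.2

variable (N) in
/-- **Rational spanning.** If the divisor `D` is fixed by the automorphisms of `ℂ` over the
algebraically closed field `M`, then `L(D)` is spanned by functions with `q`-coefficients
in `M`. -/
theorem L_le_span_isRat (M : IntermediateField ℚ ℂ) [IsAlgClosed M] (D : Divisor ℂ (FNK ℂ N))
    (hD : ∀ σ ∈ M.fixingSubgroup, rho N σ • D = D) :
    riemannRochSpace D ≤ Submodule.span ℂ {f | f ∈ riemannRochSpace D ∧ IsRat M f} := by
  have hFF := isFF1_C N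
  haveI : Module.Finite ℂ (riemannRochSpace D) := hFF.finite_L D
  let ι : FNK ℂ N →ₗ[ℂ] LaurentSeries ℂ :=
    { toFun := fun a => (a : LaurentSeries ℂ)
      map_add' := fun a b => rfl
      map_smul' := fun c a => by
        show ((c • a : FNK ℂ N) : LaurentSeries ℂ) = c • (a : LaurentSeries ℂ)
        rw [← HahnSeries.C_mul_eq_smul, Algebra.smul_def]
        show algebraMap ℂ (LaurentSeries ℂ) c * (a : LaurentSeries ℂ) = _
        rw [LaurentSeries.algebraMap_apply] }
  have hι : Function.Injective ι := fun a b h => Subtype.ext h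
  have hιcoe : ∀ f : FNK ℂ N, ι f = (f : LaurentSeries ℂ) := fun f => rfl
  set W : Submodule ℂ (LaurentSeries ℂ) := (riemannRochSpace D).map ι with hW
  haveI : FiniteDimensional ℂ W := by rw [hW]; infer_instance
  have hstab : ∀ σ ∈ (⊤ : Subgroup (ℂ ≃ₐ[M] ℂ)), ∀ x ∈ W,
      coeffMap ((σ : ℂ ≃ₐ[M] ℂ) : ℂ →+* ℂ) x ∈ W := by
    rintro σ - x ⟨f, hf, rfl⟩
    have hσ' : (σ.restrictScalars ℚ) ∈ M.fixingSubgroup := by
      rw [IntermediateField.mem_fixingSubgroup_iff]
      intro y hy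
      exact σ.commutes ⟨y, hy⟩
    refine ⟨rho N (σ.restrictScalars ℚ) • f, ?_, ?_⟩
    · have := smul_mem_L (rho N (σ.restrictScalars ℚ)) hf
      rwa [hD _ hσ'] at this
    · rw [hιcoe, hιcoe, coe_rho_smul]
      rfl
  have key := Fermat.Agent.Lib.Descent.laurent_descent (K := M) (Ω := ℂ)
    (⊤ : Subgroup (ℂ ≃ₐ[M] ℂ)) (by simp) W hstab
  intro f hf
  have h1 : ι f ∈ Submodule.span ℂ
      (ι '' {f | f ∈ riemannRochSpace D ∧ IsRat M f}) := by
    refine Submodule.span_mono ?_ (key ⟨f, hf, rfl⟩)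
    rintro x ⟨⟨f', hf', rfl⟩, y, hy⟩
    refine ⟨f', ⟨hf', fun k => ?_⟩, rfl⟩
    have : (f' : LaurentSeries ℂ) = coeffMap (algebraMap M ℂ) y := hy.symm
    rw [this, coeffMap_coeff]
    exact (y.coeff k).2
  rw [← Submodule.map_span] at h1
  obtain ⟨z, hz, hzf⟩ := h1
  rwa [← hι hzf]

/-! ### Separation of places by rational functions -/

theorem exists_rat_not_val (P P' : Place ℂ (FNK ℂ N)) (f : FNK ℂ N) :
    ∃ a : ℚ, ¬ Val P f (a : ℂ) ∧ ¬ Val P' f (a : ℂ) := by
  by_contra hcon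
  push Not at hcon
  by_cases h0 : Val P f ((0 : ℚ) : ℂ)
  · have h1 : ¬ Val P f ((1 : ℚ) : ℂ) := fun h => by
      have := val_unique h0 h
      norm_num at this
    have h2 : ¬ Val P f ((2 : ℚ) : ℂ) := fun h => by
      have := val_unique h0 h
      norm_num at this
    have := val_unique (hcon 1 h1) (hcon 2 h2)
    norm_num at this
  · have h0' := hcon 0 h0
    by_cases h1 : Val P f ((1 : ℚ) : ℂ)
    · have h2 : ¬ Val P f ((2 : ℚ) : ℂ) := fun h => by
        have := val_unique h1 h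
        norm_num at this
      have := val_unique h0' (hcon 2 h2)
      norm_num at this
    · have := val_unique h0' (hcon 1 h1)
      norm_num at this

variable (N) in
/-- The zero divisor of `j - a`. -/
theorem exists_zeroDiv (a : ℂ) : ∃ Z : Divisor ℂ (FNK ℂ N),
    ∀ v, Z v = max (v.ord (jBarK ℂ N - algebraMap ℂ (FNK ℂ N) a)) 0 := by
  have := (isFF1_C N).hasPrincipalDivisors
  obtain ⟨D, hD, -⟩ := HasPrincipalDivisors.exists_divisor (K := ℂ) _ (jBarK_sub_ne_zero N a)
  refine ⟨D.mapRange (fun n => max n 0) (by simp), fun v => ?_⟩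
  rw [Finsupp.mapRange_apply, hD v]

theorem ord_inv_smul (g : SemilinearAut ℂ (FNK ℂ N)) (v : Place ℂ (FNK ℂ N)) (f : FNK ℂ N) :
    (g⁻¹ • v).ord f = v.ord (g • f) := by
  have h1 := SemilinearAut.ord_smul g (g⁻¹ • v) f
  rw [smul_inv_smul] at h1
  exact h1.symm

/-- **Separation.** Two distinct places of `F_ℂ` are separated by a function with algebraic
`q`-coefficients which is regular at both. -/
theorem exists_isRat_separating {P P' : Place ℂ (FNK ℂ N)} (hne : P ≠ P') :
    ∃ f : FNK ℂ N, IsRat Qbar f ∧ ∃ c c' : ℂ, Val P f c ∧ Val P' f c' ∧ c ≠ c' := by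
  by_contra hcon
  push Not at hcon
  have hFF := isFF1_C N
  obtain ⟨a, haP, haP'⟩ := exists_rat_not_val P P' (jBarK ℂ N)
  obtain ⟨Z, hZ⟩ := exists_zeroDiv N (a : ℂ)
  have hZ0 : ∀ Q : Place ℂ (FNK ℂ N), ¬ Val Q (jBarK ℂ N) (a : ℂ) → Z Q = 0 := by
    intro Q hQ
    rw [hZ Q]
    rw [val_iff, not_or] at hQ
    exact max_eq_right (not_lt.mp hQ.2)
  have hZP : Z P = 0 := hZ0 P haP
  have hZP' : Z P' = 0 := hZ0 P' haP'
  have hZfix : ∀ σ : ℂ ≃ₐ[ℚ] ℂ, rho N σ • Z = Z := by
    intro σ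
    ext v
    rw [SemilinearAut.divisor_smul_apply, hZ, hZ, ord_inv_smul, smul_sub, rho_smul_jBarK,
      rho_smul_algebraMap, map_ratCast]
  have hZdeg : 1 ≤ Divisor.degree Z := by
    obtain ⟨v₀, hv₀⟩ := hFF.exists_zero_sub (a : ℂ)
    have hnn : ∀ v, 0 ≤ (Z - Finsupp.single v₀ (1 : ℤ)) v := by
      intro v
      rw [Finsupp.sub_apply, hZ v]
      by_cases hv : v = v₀
      · subst hv
        rw [Finsupp.single_eq_same]
        have := le_max_left (v.ord (jBarK ℂ N - algebraMap ℂ (FNK ℂ N) (a : ℂ))) 0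
        omega
      · rw [Finsupp.single_eq_of_ne hv]
        have := le_max_right (v.ord (jBarK ℂ N - algebraMap ℂ (FNK ℂ N) (a : ℂ))) 0
        omega
    have := GenPos.degree_nonneg hFF hnn
    rw [BasePoint.degree_sub_single hFF] at this
    omega
  obtain ⟨c₀, hc₀⟩ := BasePoint.exists_NS hFF
  set m : ℕ := (c₀ + 2).toNat with hm
  set D : Divisor ℂ (FNK ℂ N) := m • Z with hDdef
  have hDdeg : c₀ + 2 ≤ Divisor.degree D := by
    rw [hDdef, map_nsmul, nsmul_eq_mul]
    have h1 := Int.self_le_toNat (c₀ + 2)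
    have h2 : (0 : ℤ) ≤ (m : ℤ) := Int.natCast_nonneg _
    nlinarith
  set D' : Divisor ℂ (FNK ℂ N) := D - Finsupp.single P (1 : ℤ) with hD'def
  have hD'deg : c₀ + 1 ≤ Divisor.degree D' := by
    rw [hD'def, BasePoint.degree_sub_single hFF]
    linarith
  obtain ⟨h, hh, hhP'⟩ := BasePoint.bpf_of_degree hFF hc₀ hD'deg P'
  have hD'P' : D' P' = 0 := by
    rw [hD'def, Finsupp.sub_apply, hDdef, Finsupp.smul_apply, hZP',
      Finsupp.single_eq_of_ne (Ne.symm hne)]
    simp
  have hD'P : D' P = -1 := by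
    rw [hD'def, Finsupp.sub_apply, hDdef, Finsupp.smul_apply, hZP, Finsupp.single_eq_same]
    simp
  have hvalP : Val P h 0 := by
    unfold Val
    rw [map_zero, sub_zero]
    refine lt_of_le_of_lt (hh P) ?_
    rw [hD'P, ← exp_zero, exp_lt_exp]
    norm_num
  have hnvalP' : ¬ Val P' h 0 := by
    unfold Val
    rw [map_zero, sub_zero, hhP', hD'P', exp_zero]
    exact lt_irrefl _
  have hD'le : D' ≤ D := by
    rw [hD'def]
    intro v
    rw [Finsupp.sub_apply]
    by_cases hv : v = P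
    · subst hv; rw [Finsupp.single_eq_same]; omega
    · rw [Finsupp.single_eq_of_ne hv]; omega
  have hhD : h ∈ riemannRochSpace D := RR.L_mono hD'le hh
  have hDfix : ∀ σ ∈ Qbar.fixingSubgroup, rho N σ • D = D := fun σ _ => by
    rw [hDdef, smul_comm, hZfix]
  have hspan := L_le_span_isRat N Qbar D hDfix hhD
  have hDP : D P = 0 := by rw [hDdef, Finsupp.smul_apply, hZP]; simp
  have hDP' : D P' = 0 := by rw [hDdef, Finsupp.smul_apply, hZP']; simp
  have hp : ∃ c, Val P h c ∧ Val P' h c := by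
    refine Submodule.span_induction (p := fun x _ => ∃ c, Val P x c ∧ Val P' x c)
      ?_ ?_ ?_ ?_ hspan
    · rintro f ⟨hfD, hfR⟩
      have h1 : 0 ≤ P.ord f := by
        have := hfD P
        rw [hDP, exp_zero] at this
        rcases P.adicValuation_le_one_iff.mp this with h0 | h0
        · rw [h0]; simp
        · exact h0
      have h2 : 0 ≤ P'.ord f := by
        have := hfD P'
        rw [hDP', exp_zero] at this
        rcases P'.adicValuation_le_one_iff.mp this with h0 | h0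
        · rw [h0]; simp
        · exact h0
      obtain ⟨c, hc⟩ := exists_val_of_ord_nonneg P h1
      obtain ⟨c', hc'⟩ := exists_val_of_ord_nonneg P' h2
      have hcc := hcon f hfR c c' hc hc'
      exact ⟨c, hc, hcc ▸ hc'⟩
    · exact ⟨0, val_zero P, val_zero P'⟩
    · rintro x y _ _ ⟨c, h1, h2⟩ ⟨c', h3, h4⟩
      exact ⟨c + c', val_add h1 h3, val_add h2 h4⟩
    · rintro r x _ ⟨c, h1, h2⟩
      refine ⟨r * c, ?_, ?_⟩
      · rw [Algebra.smul_def]
        exact val_mul (val_algebraMap P r) h1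
      · rw [Algebra.smul_def]
        exact val_mul (val_algebraMap P' r) h2
  obtain ⟨c, hc1, hc2⟩ := hp
  have hc0 : c = 0 := val_unique hc1 hvalP
  exact hnvalP' (hc0 ▸ hc2)

/-! ### The automorphisms over `M` fix the `M`-rational places -/

/-- The value of an `M`-rational function at a place whose `Γ_M`-orbit is finite lies in `M`. -/
theorem val_mem_of_orbit_subset (M : IntermediateField ℚ ℂ) [IsAlgClosed M]
    {P : Place ℂ (FNK ℂ N)} {f : FNK ℂ N} (hf : IsRat M f) {c : ℂ} (hc : Val P f c)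
    (S : Set (Place ℂ (FNK ℂ N))) (hS : S.Finite)
    (hPS : ∀ σ ∈ M.fixingSubgroup, rho N σ • P ∈ S) : c ∈ M := by
  apply Field.mem_of_finite_orbit' M c
  have hfin : {y : ℂ | ∃ Q ∈ S, Val Q f y}.Finite := by
    have : {y : ℂ | ∃ Q ∈ S, Val Q f y} = ⋃ Q ∈ S, {y | Val Q f y} := by
      ext y; simp
    rw [this]
    exact hS.biUnion fun Q _ => Set.Subsingleton.finite (fun y hy y' hy' => val_unique hy hy')
  refine hfin.subset ?_
  rintro y ⟨σ, hσ, rfl⟩
  refine ⟨rho N σ • P, hPS σ hσ, ?_⟩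
  have := val_smul_of_val σ hc
  rwa [rho_smul_of_isRat hf hσ] at this

/-- A place whose `Γ_M`-orbit is finite is fixed by `Γ_M`. -/
theorem smul_eq_of_orbit_subset (M : IntermediateField ℚ ℂ) [IsAlgClosed M]
    {P : Place ℂ (FNK ℂ N)} (S : Set (Place ℂ (FNK ℂ N))) (hS : S.Finite)
    (hPS : ∀ σ ∈ M.fixingSubgroup, rho N σ • P ∈ S) {σ : ℂ ≃ₐ[ℚ] ℂ}
    (hσ : σ ∈ M.fixingSubgroup) : rho N σ • P = P := by
  by_contra hne
  obtain ⟨f, hfR, c, c', hc, hc', hcc⟩ := exists_isRat_separating (Ne.symm hne)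
  have hfM : IsRat M f := fun k => qbar_le M (hfR k)
  have hcM : c ∈ M := val_mem_of_orbit_subset M hfM hc S hS hPS
  have h1 := val_smul_of_val σ hc
  rw [rho_smul_of_isRat hfM hσ, (IntermediateField.mem_fixingSubgroup_iff M σ).mp hσ c hcM] at h1
  exact hcc (val_unique h1 hc')

variable (N) in
/-- **(P3)** The automorphisms of `ℂ` over the algebraically closed field `M` fix every place
whose `j`-value lies in `M`. -/
theorem smul_eq_of_val (M : IntermediateField ℚ ℂ) [IsAlgClosed M] {P : Place ℂ (FNK ℂ N)}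
    {t : ℂ} (ht : t ∈ M) (hP : Val P (jBarK ℂ N) t) {σ : ℂ ≃ₐ[ℚ] ℂ}
    (hσ : σ ∈ M.fixingSubgroup) : rho N σ • P = P := by
  refine smul_eq_of_orbit_subset M {Q | Val Q (jBarK ℂ N) t} (finite_val_jBarK N t)
    (fun τ hτ => ?_) hσ
  have := val_jBarK_smul τ hP
  rwa [(IntermediateField.mem_fixingSubgroup_iff M τ).mp hτ t ht] at this

variable (N) in
/-- **(P3)**, poles: the automorphisms of `ℂ` over `ℚ̄` fix every pole of `j`. -/
theorem smul_eq_of_pole {P : Place ℂ (FNK ℂ N)} (hP : P.ord (jBarK ℂ N) < 0)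
    {σ : ℂ ≃ₐ[ℚ] ℂ} (hσ : σ ∈ Qbar.fixingSubgroup) : rho N σ • P = P := by
  refine smul_eq_of_orbit_subset Qbar {Q | Q.ord (jBarK ℂ N) < 0} (finite_pole_jBarK N)
    (fun τ _ => ?_) hσ
  show (rho N τ • P).ord (jBarK ℂ N) < 0
  rw [ord_jBarK_smul]
  exact hP

end Fermat.Agent.MW.DivC.Sep
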