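/-
helper19 — MW / DIV-C, brick DIVC-3 (shadow copy): `M`-generic places are conjugate under the
automorphisms of `ℂ` over `M`.
-/
import Mathlib
import Fermat.Agent.MW.DivC.Sep
import Fermat.Agent.ESJ.Dict.Bc
import Fermat.Agent.Lib.Red.Level

set_option autoImplicit false
set_option linter.unusedSectionVars false

open AlgebraicCurve ModularCurve WithZero Cardinal

noncomputable section

namespace Fermat.Agent.MW.DivC.ConjS

open Fermat.Agent.ESJ.Jac Fermat.Agent.MW.DivC Fermat.Agent.Lib.FF Fermat.Agent.MW.DivC.Values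
  Fermat.Agent.MW.DivC.Sep Fermat.Agent.ESJ.Dict Fermat.Agent.ESJ.Dict.Bc

variable {N : ℕ} [NeZero N]

/-- **(P5)** A nonzero `M`-rational function is a unit at every place whose `j`-value is not
in `M`. -/
theorem ord_eq_zero_of_isRat (M : IntermediateField ℚ ℂ) [IsAlgClosed M]
    {P : Place ℂ (FNK ℂ N)} {t : ℂ} (hP : Val P (jBarK ℂ N) t) (ht : t ∉ M) {f : FNK ℂ N}
    (hf : IsRat M f) (hf0 : f ≠ 0) : P.ord f = 0 := by
  by_contra hne
  apply ht
  have hPS : ∀ σ ∈ M.fixingSubgroup, rho N σ • P ∈ {Q : Place ℂ (FNK ℂ N) | Q.ord f ≠ 0} := by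
    intro σ hσ
    show (rho N σ • P).ord f ≠ 0
    have h1 := SemilinearAut.ord_smul (rho N σ) P f
    rw [rho_smul_of_isRat hf hσ] at h1
    rw [h1]
    exact hne
  apply Field.mem_of_finite_orbit' M t
  refine (Set.finite_singleton t).subset ?_
  rintro y ⟨σ, hσ, rfl⟩
  have hfix := smul_eq_of_orbit_subset M _ (finite_ord_ne_zero hf0) hPS hσ
  have h2 := val_jBarK_smul σ hP
  rw [hfix] at h2
  exact val_unique h2 hP

/-! ### The field `F_M` and evaluation at an `M`-generic place -/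

variable (N) in
/-- `F_K` is countable for a countable field `K`. -/
theorem mk_FNK_le (K : Type) [Field K] [Algebra ℚ K] [Countable K] : #(FNK K N) ≤ ℵ₀ := by
  have h := Fermat.Agent.Lib.Red.laurentBaseChange_eq_FF K N
  show #(↥(laurentBaseChange K (modularFunctionFieldFull N))) ≤ ℵ₀
  rw [h]
  unfold Fermat.Agent.S28.TD.FF
  refine (IntermediateField.cardinalMk_adjoin_le K _).trans ?_
  have h1 : #K ≤ ℵ₀ := Cardinal.mk_le_aleph0
  have h2 : #((fun d => Fermat.Agent.S28.TD.Jd K (1 * d)) '' {d | d ∣ N}) ≤ ℵ₀ :=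
    Cardinal.mk_image_le.trans Cardinal.mk_le_aleph0
  exact sup_le (sup_le h1 h2) le_rfl

section Psi

variable (M : IntermediateField ℚ ℂ) [IsAlgClosed M]

variable (N) in
/-- The base change `F_M → F_ℂ`. -/
abbrev bcM : FNK M N →+* FNK ℂ N := bcK (algebraMap M ℂ) (modularFunctionFieldFull N)

theorem isRat_bcM (x : FNK M N) : IsRat M (bcM N M x) := by
  intro k
  show (coeffMap (algebraMap M ℂ) (x : LaurentSeries M)).coeff k ∈ M
  rw [coeffMap_coeff]
  exact ((x : LaurentSeries M).coeff k).2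

theorem exists_bcM_eq {f : FNK ℂ N} (hf : IsRat M f) : ∃ x : FNK M N, bcM N M x = f :=
  mem_range_bcK (algebraMap M ℂ) (modularFunctionFieldFull N) f (fun k => ⟨⟨_, hf k⟩, rfl⟩)

theorem ord_bcM_nonneg {P : Place ℂ (FNK ℂ N)} {t : ℂ} (hP : Val P (jBarK ℂ N) t) (ht : t ∉ M)
    (x : FNK M N) : 0 ≤ P.ord (bcM N M x) := by
  rcases eq_or_ne x 0 with rfl | hx
  · simp
  · rw [ord_eq_zero_of_isRat M hP ht (isRat_bcM M x) ((map_ne_zero _).mpr hx)]

/-- The value of (the base change of) `x ∈ F_M` at the `M`-generic place `P`. -/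
def psiFun {P : Place ℂ (FNK ℂ N)} {t : ℂ} (hP : Val P (jBarK ℂ N) t) (ht : t ∉ M)
    (x : FNK M N) : ℂ :=
  Classical.choose (exists_val_of_ord_nonneg P (ord_bcM_nonneg M hP ht x))

theorem val_psiFun {P : Place ℂ (FNK ℂ N)} {t : ℂ} (hP : Val P (jBarK ℂ N) t) (ht : t ∉ M)
    (x : FNK M N) : Val P (bcM N M x) (psiFun M hP ht x) :=
  Classical.choose_spec (exists_val_of_ord_nonneg P (ord_bcM_nonneg M hP ht x))

/-- Evaluation at an `M`-generic place, as an `M`-algebra homomorphism `F_M → ℂ`. -/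
def psi {P : Place ℂ (FNK ℂ N)} {t : ℂ} (hP : Val P (jBarK ℂ N) t) (ht : t ∉ M) :
    FNK M N →ₐ[M] ℂ where
  toFun := psiFun M hP ht
  map_one' := by
    have h := val_psiFun M hP ht 1
    rw [map_one] at h
    exact val_unique h (val_one P)
  map_mul' x y := by
    have h := val_psiFun M hP ht (x * y)
    rw [map_mul] at h
    exact val_unique h (val_mul (val_psiFun M hP ht x) (val_psiFun M hP ht y))
  map_zero' := by
    have h := val_psiFun M hP ht 0
    rw [map_zero] at h
    exact val_unique h (val_zero P)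
  map_add' x y := by
    have h := val_psiFun M hP ht (x + y)
    rw [map_add] at h
    exact val_unique h (val_add (val_psiFun M hP ht x) (val_psiFun M hP ht y))
  commutes' m := by
    have h := val_psiFun M hP ht (algebraMap M (FNK M N) m)
    rw [bcK_algebraMap] at h
    exact val_unique h (val_algebraMap P _)

theorem val_psi {P : Place ℂ (FNK ℂ N)} {t : ℂ} (hP : Val P (jBarK ℂ N) t) (ht : t ∉ M)
    (x : FNK M N) : Val P (bcM N M x) (psi M hP ht x) :=
  val_psiFun M hP ht x

/-- **(P6)** Any two places whose `j`-values are not in the countable algebraically closed field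
`M` are conjugate under the automorphisms of `ℂ` over `M`. -/
theorem exists_smul_eq_of_not_mem [Countable M] {P P' : Place ℂ (FNK ℂ N)} {t t' : ℂ}
    (hP : Val P (jBarK ℂ N) t) (ht : t ∉ M) (hP' : Val P' (jBarK ℂ N) t') (ht' : t' ∉ M) :
    ∃ σ ∈ M.fixingSubgroup, rho N σ • P = P' := by
  have hL : #(FNK M N) ≤ ℵ₀ := mk_FNK_le N M
  have hC : ℵ₀ < #ℂ := by
    rw [Cardinal.mk_complex]
    exact Cardinal.aleph0_lt_continuum
  obtain ⟨σ, hσ⟩ := Fermat.Agent.MW.Div.AutField.exists_algEquiv_comp_eq hL hC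
    (psi M hP ht) (psi M hP' ht')
  have hσM : σ.restrictScalars ℚ ∈ M.fixingSubgroup := by
    rw [IntermediateField.mem_fixingSubgroup_iff]
    intro y hy
    exact σ.commutes ⟨y, hy⟩
  refine ⟨σ.restrictScalars ℚ, hσM, ?_⟩
  by_contra hne
  obtain ⟨f, hfR, c, c', hc, hc', hcc⟩ := exists_isRat_separating hne
  have hfM : IsRat M f := fun k => qbar_le M (hfR k)
  obtain ⟨x, rfl⟩ := exists_bcM_eq M hfM
  have h1 := val_smul_of_val (σ.restrictScalars ℚ) (val_psi M hP ht x)
  rw [rho_smul_of_isRat hfM hσM] at h1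
  have h2 : (σ.restrictScalars ℚ) (psi M hP ht x) = psi M hP' ht' x := hσ x
  rw [h2] at h1
  exact hcc ((val_unique hc h1).trans (val_unique (val_psi M hP' ht' x) hc'))

end Psi

end Fermat.Agent.MW.DivC.ConjS
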