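/-
MW / DIV-C, brick DIVC-7 (task 428): any two generic tuples of places of `F_ℂ = ℂ·F_N` are
conjugate under `Γ_ℚ̄ = Aut(ℂ/ℚ̄)`.

Induction on the number of matched places: if `σ P_k = P'_k` for `k < i`, replace `(P, t)` by
`(σ P, σ t)` (generic again), put `M := algCl {t'_k | k < i}` (algebraically closed, countable,
containing `ℚ̄`); `t_i, t'_i ∉ M`, so some `τ ∈ Γ_M` maps `P_i` to `P'_i` (`ConjS`), and `τ` fixes
the `M`-rational places `P_k`, `k < i` (`Sep`).
-/
import Mathlib
import Fermat.Agent.MW.DivC.Values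
import Fermat.Agent.MW.DivC.Sep
import Fermat.Agent.MW.DivC.ConjS
import Fermat.Agent.MW.DivC.Field

set_option autoImplicit false

open AlgebraicCurve ModularCurve

noncomputable section

namespace Fermat.Agent.MW.DivC.Homog

open Fermat.Agent.ESJ.Jac Fermat.Agent.MW.DivC

variable (N : ℕ) [NeZero N]

/-- A generic tuple stays generic under the coefficientwise action of `Aut(ℂ/ℚ)`. -/
theorem isGeneric_smul {g : ℕ} {P : Fin g → Place ℂ (FNK ℂ N)} {t : Fin g → ℂ}
    (hP : IsGeneric P t) (σ : ℂ ≃ₐ[ℚ] ℂ) :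
    IsGeneric (fun k => rho N σ • P k) (fun k => σ (t k)) := by
  refine ⟨?_, fun i => ?_⟩
  · exact hP.1.map' (f := (σ : ℂ →ₐ[ℚ] ℂ)) σ.injective
  · have h := (Values.val_smul σ (P := P i) (f := jBarK ℂ N) (c := t i)).mpr (hP.2 i)
    rwa [Values.rho_smul_jBarK] at h

/-- `Γ_M ≤ Γ_ℚ̄` for `M = algCl T`. -/
theorem mem_fixingSubgroup_qbar_of_algCl (T : Set ℂ) {σ : ℂ ≃ₐ[ℚ] ℂ}
    (hσ : σ ∈ (algCl T).fixingSubgroup) : σ ∈ Qbar.fixingSubgroup := by
  rw [IntermediateField.mem_fixingSubgroup_iff] at hσ ⊢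
  exact fun x hx => hσ x (Field.qbar_le_algCl T hx)

/-- The inductive statement: the first `i` places can be matched by an element of `Γ_ℚ̄`. -/
theorem exists_smul_eq_of_isGeneric_aux {g : ℕ} {P P' : Fin g → Place ℂ (FNK ℂ N)}
    {t t' : Fin g → ℂ} (hP : IsGeneric P t) (hP' : IsGeneric P' t') :
    ∀ i : ℕ, i ≤ g → ∃ σ ∈ Qbar.fixingSubgroup, ∀ k : Fin g, (k : ℕ) < i →
      rho N σ • P k = P' k := by
  intro i
  induction i with
  | zero =>
    intro _
    exact ⟨1, Subgroup.one_mem _, fun k hk => absurd hk (Nat.not_lt_zero _)⟩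
  | succ i ih =>
    intro hi
    obtain ⟨σ, hσ, hσP⟩ := ih (Nat.le_of_succ_le hi)
    -- the translated tuple
    have hQ := isGeneric_smul N hP σ
    set Q : Fin g → Place ℂ (FNK ℂ N) := fun k => rho N σ • P k with hQdef
    set s : Fin g → ℂ := fun k => σ (t k) with hsdef
    let i' : Fin g := ⟨i, hi⟩
    have hs : ∀ k : Fin g, k < i' → s k = t' k := by
      intro k hk
      have h1 : Val (P' k) (jBarK ℂ N) (s k) := by
        have := hQ.2 k
        rwa [show Q k = P' k from hσP k hk] at this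
      exact Values.val_unique h1 (hP'.2 k)
    have himg : s '' {k | k < i'} = t' '' {k | k < i'} := by
      ext x
      constructor
      · rintro ⟨k, hk, rfl⟩
        exact ⟨k, hk, (hs k hk).symm⟩
      · rintro ⟨k, hk, rfl⟩
        exact ⟨k, hk, hs k hk⟩
    -- the field `M`
    have hcount : Countable ↥(t' '' {k : Fin g | k < i'}) :=
      ((Set.toFinite {k : Fin g | k < i'}).image t').countable.to_subtype
    have hsi : s i' ∉ algCl (t' '' {k | k < i'}) := by
      rw [← himg]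
      exact Field.not_mem_algCl_of_algebraicIndependent hQ.1 i'
    have hti : t' i' ∉ algCl (t' '' {k | k < i'}) :=
      Field.not_mem_algCl_of_algebraicIndependent hP'.1 i'
    obtain ⟨τ, hτ, hτQ⟩ := ConjS.exists_smul_eq_of_not_mem (N := N) (algCl (t' '' {k | k < i'}))
      (hQ.2 i') hsi (hP'.2 i') hti
    refine ⟨τ * σ, Subgroup.mul_mem _ (mem_fixingSubgroup_qbar_of_algCl _ hτ) hσ, ?_⟩
    intro k hk
    rw [map_mul, mul_smul]
    rcases Nat.lt_succ_iff_lt_or_eq.mp hk with hlt | heq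
    · have hk' : k < i' := hlt
      have h1 : rho N σ • P k = P' k := hσP k hlt
      have hmem : s k ∈ algCl (t' '' {k | k < i'}) := by
        rw [hs k hk']
        exact Field.subset_algCl _ ⟨k, hk', rfl⟩
      have h2 : rho N τ • Q k = Q k :=
        Sep.smul_eq_of_val N (algCl (t' '' {k | k < i'})) hmem (hQ.2 k) hτ
      show rho N τ • Q k = P' k
      rw [h2]
      exact h1
    · have hki : k = i' := Fin.ext heq
      subst hki
      exact hτQ

/-- **DIVC-7.** Any two generic tuples are conjugate under `Γ_ℚ̄`. -/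
theorem exists_smul_eq_of_isGeneric {g : ℕ} {P P' : Fin g → Place ℂ (FNK ℂ N)}
    {t t' : Fin g → ℂ} (hP : IsGeneric P t) (hP' : IsGeneric P' t') :
    ∃ σ ∈ Qbar.fixingSubgroup, ∀ i, rho N σ • P i = P' i := by
  obtain ⟨σ, hσ, h⟩ := exists_smul_eq_of_isGeneric_aux N hP hP' g le_rfl
  exact ⟨σ, hσ, fun i => h i i.2⟩

end Fermat.Agent.MW.DivC.Homog
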