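/-
MW / DIV-C, row 425 (DIVC-4), abstract core of "Lemma C".

Setting `h : IsFF1 K F x`.  Semilinear automorphisms (`SemilinearAut K F`) transport
Riemann–Roch spaces and jump sets.  If `P_0, …, P_{n-1}` (`n ≤ g`) are places such that each
`P_i` has an infinite orbit under a set of semilinear automorphisms fixing `P_0, …, P_{i-1}`,
then `L(P_0 + … + P_{n-1}) = L(0)`; hence the only effective divisor linearly equivalent to
`P_0 + … + P_{n-1}` is that divisor itself.
-/
import Mathlib
import Fermat.Agent.Lib.FF.GenPos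
import Fermat.Prelude.Def_AlgebraicCurve_BaseChangeGalois

set_option autoImplicit false

noncomputable section

namespace Fermat.Agent.MW.DivC.RRCCore

open AlgebraicCurve WithZero Module
open Fermat.Agent.Lib.FF Fermat.Agent.Lib.FF.BasePoint

variable {K F : Type*} [Field K] [Field F] [Algebra K F] {x : F}

/-! ### transport by semilinear automorphisms -/

/-- valuations are transported by semilinear automorphisms -/
theorem adicValuation_smul (g : SemilinearAut K F) (v : Place K F) (f : F) :
    (g • v).adicValuation (g • f) = v.adicValuation f := by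
  rcases eq_or_ne f 0 with rfl | hf
  · simp
  · have hgf : g • f ≠ 0 := by
      intro h0
      apply hf
      have := congrArg (g⁻¹ • ·) h0
      simpa using this
    rw [(g • v).adicValuation_eq_exp_neg_ord hgf, v.adicValuation_eq_exp_neg_ord hf,
      SemilinearAut.ord_smul]

/-- `g` maps `L(D)` onto `L(g D)` -/
theorem smul_mem_L_iff (g : SemilinearAut K F) (D : Divisor K F) (f : F) :
    g • f ∈ riemannRochSpace (g • D) ↔ f ∈ riemannRochSpace D := by
  constructor
  · intro hf v
    have h1 := hf (g • v)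
    rwa [adicValuation_smul, SemilinearAut.divisor_smul_apply_smul] at h1
  · intro hf w
    have h1 := hf (g⁻¹ • w)
    rw [← adicValuation_smul g, smul_inv_smul] at h1
    rwa [SemilinearAut.divisor_smul_apply]

theorem smul_addPl (g : SemilinearAut K F) (E : Divisor K F) (Q : Place K F) :
    g • RR.addPl E Q = RR.addPl (g • E) (g • Q) := by
  unfold RR.addPl
  rw [smul_add, SemilinearAut.smul_single]

/-- jump sets are transported by semilinear automorphisms -/
theorem smul_mem_jumpSet (g : SemilinearAut K F) {E : Divisor K F} {Q : Place K F}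
    (hQ : Q ∈ RR.jumpSet E) : g • Q ∈ RR.jumpSet (g • E) := by
  intro heq
  apply hQ
  ext f
  rw [← smul_mem_L_iff g, ← smul_mem_L_iff g E, smul_addPl, heq]

/-- A place with an infinite orbit under automorphisms fixing `E` is not a jump of `E`, when the
jump set of `E` is finite. -/
theorem notMem_jumpSet_of_infinite_orbit {E : Divisor K F} (hfin : (RR.jumpSet E).Finite)
    (Γ : Set (SemilinearAut K F)) (hΓ : ∀ γ ∈ Γ, γ • E = E) {Q : Place K F}
    (hQ : {Q' | ∃ γ ∈ Γ, γ • Q = Q'}.Infinite) : Q ∉ RR.jumpSet E := by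
  intro hmem
  apply hQ
  refine hfin.subset ?_
  rintro Q' ⟨γ, hγ, rfl⟩
  have := smul_mem_jumpSet γ hmem
  rwa [hΓ γ hγ] at this

/-! ### partial sums of a tuple of places -/

/-- `P_0 + … + P_{i-1}` -/
def psum {n : ℕ} (P : Fin n → Place K F) (i : ℕ) : Divisor K F :=
  ∑ k ∈ Finset.univ.filter (fun k : Fin n => (k : ℕ) < i), Finsupp.single (P k) (1 : ℤ)

theorem psum_zero {n : ℕ} (P : Fin n → Place K F) : psum P 0 = 0 := by
  unfold psum
  refine Finset.sum_eq_zero fun k hk => ?_
  simp at hk

theorem psum_succ {n : ℕ} (P : Fin n → Place K F) (i : ℕ) (hi : i < n) :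
    psum P (i + 1) = RR.addPl (psum P i) (P ⟨i, hi⟩) := by
  classical
  unfold psum RR.addPl
  have hset : Finset.univ.filter (fun k : Fin n => (k : ℕ) < i + 1)
      = insert (⟨i, hi⟩ : Fin n) (Finset.univ.filter (fun k : Fin n => (k : ℕ) < i)) := by
    ext k
    simp only [Finset.mem_filter, Finset.mem_univ, true_and, Finset.mem_insert, Fin.ext_iff]
    omega
  rw [hset, Finset.sum_insert (by simp), add_comm]

theorem psum_self {n : ℕ} (P : Fin n → Place K F) :
    psum P n = ∑ k, Finsupp.single (P k) (1 : ℤ) := by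
  unfold psum
  congr 1
  ext k
  simp

theorem smul_psum {n : ℕ} (P : Fin n → Place K F) (i : ℕ) (γ : SemilinearAut K F)
    (hγ : ∀ k : Fin n, (k : ℕ) < i → γ • P k = P k) : γ • psum P i = psum P i := by
  unfold psum
  rw [Finset.smul_sum]
  refine Finset.sum_congr rfl fun k hk => ?_
  rw [SemilinearAut.smul_single, hγ k (by simpa using hk)]

/-! ### Lemma C -/

/-- **Lemma C, inductive form.**  If every `P_i` has an infinite orbit under a set of semilinear
automorphisms fixing `P_0, …, P_{i-1}`, and `n ≤ g`, then `L(P_0 + … + P_{i-1}) = L(0)` for all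
`i ≤ n`. -/
theorem L_psum_eq (h : IsFF1 K F x) {n : ℕ} (hn : n ≤ genusFF K F) (P : Fin n → Place K F)
    (hgen : ∀ i : Fin n, ∃ Γ : Set (SemilinearAut K F),
      (∀ γ ∈ Γ, ∀ k : Fin n, k < i → γ • P k = P k) ∧ {Q | ∃ γ ∈ Γ, γ • P i = Q}.Infinite)
    (i : ℕ) (hi : i ≤ n) :
    riemannRochSpace (psum P i) = riemannRochSpace (0 : Divisor K F) ∧
      Divisor.degree (psum P i) = i := by
  induction i with
  | zero =>
    rw [psum_zero]
    exact ⟨rfl, by simp⟩
  | succ i ih =>
    have hi' : i < n := hi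
    obtain ⟨hL, hdeg⟩ := ih hi'.le
    obtain ⟨Γ, hfix, hinf⟩ := hgen ⟨i, hi'⟩
    have hcD : RR.cD (psum P i) = (i : ℤ) - 1 := by
      unfold RR.cD
      rw [hdeg, hL, h.finrank_L_zero]
      simp
    have hMD : RR.MD (psum P i) ≠ ⊤ := by
      intro htop
      have h1 := (MD_eq_top_iff h _).1 htop
      rw [hcD] at h1
      have h2 : (i : ℤ) + 1 ≤ (genusFF K F : ℤ) := by exact_mod_cast (hi.trans hn)
      omega
    have hfin := h.finite_jumpSet _ hMD
    have hΓ : ∀ γ ∈ Γ, γ • psum P i = psum P i := fun γ hγ =>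
      smul_psum P i γ fun k hk => hfix γ hγ k (by
        rw [Fin.lt_def]
        exact hk)
    have hnot := notMem_jumpSet_of_infinite_orbit hfin Γ hΓ hinf
    rw [psum_succ P i hi']
    refine ⟨?_, ?_⟩
    · rw [RR.L_addPl_eq_of_notMem_jumpSet hnot, hL]
    · rw [RR.degree_addPl h.resK, hdeg]
      push_cast
      ring

/-- the order of a nonzero constant is `0` -/
theorem ord_algebraMap (v : Place K F) (c : K) : v.ord (algebraMap K F c) = 0 := by
  rcases eq_or_ne c 0 with rfl | hc
  · rw [map_zero, Place.ord_zero]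
  · have hc' : algebraMap K F c ≠ 0 := by
      rw [Ne, map_eq_zero]
      exact hc
    have h1 := (v.adicValuation_le_one_iff.mp (v.adicValuation_algebraMap_le_one c)).resolve_left
      hc'
    have hci' : algebraMap K F c⁻¹ ≠ 0 := by
      rw [Ne, map_eq_zero]
      exact inv_ne_zero hc
    have h2 := (v.adicValuation_le_one_iff.mp (v.adicValuation_algebraMap_le_one c⁻¹)).resolve_left
      hci'
    rw [map_inv₀, v.ord_inv] at h2
    omega

/-- **Lemma C.**  If every `P_i` has an infinite orbit under a set of semilinear automorphisms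
fixing `P_0, …, P_{i-1}`, and `n ≤ g`, then every element of `L(P_0 + … + P_{n-1})` is constant. -/
theorem L_sum_eq (h : IsFF1 K F x) {n : ℕ} (hn : n ≤ genusFF K F) (P : Fin n → Place K F)
    (hgen : ∀ i : Fin n, ∃ Γ : Set (SemilinearAut K F),
      (∀ γ ∈ Γ, ∀ k : Fin n, k < i → γ • P k = P k) ∧ {Q | ∃ γ ∈ Γ, γ • P i = Q}.Infinite) :
    riemannRochSpace (∑ k, Finsupp.single (P k) (1 : ℤ)) = riemannRochSpace (0 : Divisor K F) := by
  rw [← psum_self]
  exact (L_psum_eq h hn P hgen n le_rfl).1

/-- **Lemma C, divisor form.**  Under the same hypotheses the only effective divisor linearly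
equivalent to `P_0 + … + P_{n-1}` is that divisor itself. -/
theorem eq_sum_of_effective (h : IsFF1 K F x) {n : ℕ} (hn : n ≤ genusFF K F)
    (P : Fin n → Place K F)
    (hgen : ∀ i : Fin n, ∃ Γ : Set (SemilinearAut K F),
      (∀ γ ∈ Γ, ∀ k : Fin n, k < i → γ • P k = P k) ∧ {Q | ∃ γ ∈ Γ, γ • P i = Q}.Infinite)
    {E : Divisor K F} (hE : 0 ≤ E)
    (hlin : E - ∑ k, Finsupp.single (P k) (1 : ℤ) ∈ Divisor.principal (K := K) (F := F)) :
    E = ∑ k, Finsupp.single (P k) (1 : ℤ) := by
  set S : Divisor K F := ∑ k, Finsupp.single (P k) (1 : ℤ) with hS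
  obtain ⟨f, hf0, hf⟩ := hlin
  have hfL : f ∈ riemannRochSpace S := by
    intro v
    rw [v.adicValuation_le_exp_iff]
    right
    have h1 := hf v
    rw [Finsupp.sub_apply] at h1
    have h2 : (0 : ℤ) ≤ E v := Finsupp.le_def.mp hE v
    omega
  rw [hS, L_sum_eq h hn P hgen, h.L_zero_eq_range] at hfL
  obtain ⟨c, rfl⟩ := hfL
  rw [← sub_eq_zero]
  ext v
  rw [hf v, Algebra.linearMap_apply, ord_algebraMap, Finsupp.zero_apply]

/-- Riemann's inequality as effectivity: a divisor of degree `≥ g` is linearly equivalent to an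
effective one. -/
theorem exists_effective_of_degree_ge (h : IsFF1 K F x) (D : Divisor K F)
    (hD : (genusFF K F : ℤ) ≤ Divisor.degree D) :
    ∃ E : Divisor K F, 0 ≤ E ∧ E - D ∈ Divisor.principal (K := K) (F := F) := by
  have := h.hasPrincipalDivisors
  obtain ⟨f, hf0, hf⟩ := h.exists_ne_zero_of_degree_ge D hD
  obtain ⟨Df, hDf, -⟩ := HasPrincipalDivisors.exists_divisor (K := K) f hf0
  refine ⟨D + Df, ?_, ?_⟩
  · refine Finsupp.le_def.mpr fun v => ?_
    rw [Finsupp.zero_apply, Finsupp.add_apply, hDf v]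
    have := hf v
    omega
  · rw [add_sub_cancel_left]
    exact ⟨f, hf0, hDf⟩

end Fermat.Agent.MW.DivC.RRCCore
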