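/-
MW / DIV-C, row 425 (DIVC-4): effectivity in degree `g` and "Lemma C" over `ℂ`, with the single
input from DIVC-2 (`Sep.smul_eq_of_val`) taken as the hypothesis `SepHyp N`.

* `exists_effective` : a divisor of degree `g` is linearly equivalent to an effective one;
* `infinite_orbit` : a place whose `j`-value is not in the algebraically closed field `M` has an
  infinite `Γ_M`-orbit;
* `eq_tsum_of_linEq_of_sep` : the only effective divisor linearly equivalent to the sum of a
  generic tuple of `≤ g` places is that sum.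
-/
import Mathlib
import Fermat.Agent.MW.DivC.Values
import Fermat.Agent.MW.DivC.Field
import Fermat.Agent.MW.DivC.RRCCore

set_option autoImplicit false

open AlgebraicCurve ModularCurve

noncomputable section

namespace Fermat.Agent.MW.DivC.RRCPre

open Fermat.Agent.ESJ.Jac Fermat.Agent.MW.DivC Fermat.Agent.Lib.FF

variable (N : ℕ) [NeZero N]

/-- **Effectivity in degree `g`** (Riemann's inequality). -/
theorem exists_effective (D : Divisor ℂ (FNK ℂ N))
    (hdeg : Divisor.degree D = (genusFF ℂ (FNK ℂ N) : ℤ)) :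
    ∃ E : Divisor ℂ (FNK ℂ N), 0 ≤ E ∧ LinEq E D :=
  RRCCore.exists_effective_of_degree_ge (Values.isFF1_C N) D hdeg.ge

/-- The statement of `Sep.smul_eq_of_val` (DIVC-2): `Γ_M` fixes the places whose `j`-value lies
in the algebraically closed field `M`. -/
def SepHyp : Prop :=
  ∀ (M : IntermediateField ℚ ℂ) [IsAlgClosed M] {P : Place ℂ (FNK ℂ N)} {t : ℂ},
    t ∈ M → Val P (jBarK ℂ N) t → ∀ {σ : ℂ ≃ₐ[ℚ] ℂ}, σ ∈ M.fixingSubgroup → rho N σ • P = P

variable {N}

/-- A place whose `j`-value is not in the algebraically closed field `M` has an infinite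
`Γ_M`-orbit. -/
theorem infinite_orbit (M : IntermediateField ℚ ℂ) [IsAlgClosed M] {P : Place ℂ (FNK ℂ N)}
    {t : ℂ} (hP : Val P (jBarK ℂ N) t) (ht : t ∉ M) :
    {Q | ∃ γ ∈ (rho N '' (M.fixingSubgroup : Set (ℂ ≃ₐ[ℚ] ℂ))), γ • P = Q}.Infinite := by
  classical
  intro hfin
  apply ht
  apply Field.mem_of_finite_orbit' M t
  let valOf : Place ℂ (FNK ℂ N) → ℂ := fun Q =>
    if h : ∃ c, Val Q (jBarK ℂ N) c then h.choose else 0
  refine (hfin.image valOf).subset ?_
  rintro y ⟨σ, hσ, rfl⟩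
  have hv : Val (rho N σ • P) (jBarK ℂ N) (σ t) := Values.val_jBarK_smul σ hP
  refine ⟨rho N σ • P, ⟨rho N σ, ⟨σ, hσ, rfl⟩, rfl⟩, ?_⟩
  have hex : ∃ c, Val (rho N σ • P) (jBarK ℂ N) c := ⟨_, hv⟩
  show (if h : ∃ c, Val (rho N σ • P) (jBarK ℂ N) c then h.choose else 0) = σ t
  rw [dif_pos hex]
  exact Values.val_unique hex.choose_spec hv

/-- **Lemma C**, modulo `SepHyp`: the only effective divisor linearly equivalent to the sum of a
generic tuple of at most `g` places is that sum. -/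
theorem eq_tsum_of_linEq_of_sep (hsep : SepHyp N) {g : ℕ} (hg : g ≤ genusFF ℂ (FNK ℂ N))
    {P : Fin g → Place ℂ (FNK ℂ N)} {t : Fin g → ℂ} (hP : IsGeneric P t)
    {E : Divisor ℂ (FNK ℂ N)} (hE : 0 ≤ E) (hlin : LinEq E (tsum P)) : E = tsum P := by
  refine RRCCore.eq_sum_of_effective (Values.isFF1_C N) hg P (fun i => ?_) hE hlin
  refine ⟨rho N '' ((algCl (t '' {k | k < i})).fixingSubgroup : Set (ℂ ≃ₐ[ℚ] ℂ)), ?_, ?_⟩
  · rintro _ ⟨σ, hσ, rfl⟩ k hk
    exact hsep (algCl (t '' {k | k < i})) (Field.subset_algCl _ ⟨k, hk, rfl⟩) (hP.2 k) hσ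
  · exact infinite_orbit (algCl (t '' {k | k < i})) (hP.2 i)
      (Field.not_mem_algCl_of_algebraicIndependent hP.1 i)

end Fermat.Agent.MW.DivC.RRCPre
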