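/-
MW / DIV-C, row 425 (DIVC-4): effectivity in degree `g` and "Lemma C" over `ℂ`
(the row-literal statements; proofs in `RRCCore.lean` / `RRCPre.lean`, with `Sep.smul_eq_of_val`
plugged in).
-/
import Mathlib
import Fermat.Agent.MW.DivC.RRCPre
import Fermat.Agent.MW.DivC.Sep

set_option autoImplicit false

open AlgebraicCurve ModularCurve

noncomputable section

namespace Fermat.Agent.MW.DivC.RRC

open Fermat.Agent.ESJ.Jac Fermat.Agent.MW.DivC Fermat.Agent.Lib.FF

variable (N : ℕ) [NeZero N]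

/-- **Effectivity in degree `g`**: a divisor of degree `g` is linearly equivalent to an effective
divisor (Riemann's inequality). -/
theorem exists_effective (D : Divisor ℂ (FNK ℂ N))
    (hdeg : Divisor.degree D = (genusFF ℂ (FNK ℂ N) : ℤ)) :
    ∃ E : Divisor ℂ (FNK ℂ N), 0 ≤ E ∧ LinEq E D :=
  RRCPre.exists_effective N D hdeg

/-- `Sep.smul_eq_of_val` in the packaged form used by `RRCPre`. -/
theorem sepHyp : RRCPre.SepHyp N :=
  fun M _ _ _ ht hP _ hσ => Sep.smul_eq_of_val N M ht hP hσ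

/-- **Lemma C**: the only effective divisor linearly equivalent to the sum of a generic tuple of
at most `g` places is that sum (`h⁰ = 1`). -/
theorem eq_tsum_of_linEq {g : ℕ} (hg : g ≤ genusFF ℂ (FNK ℂ N)) {P : Fin g → Place ℂ (FNK ℂ N)}
    {t : Fin g → ℂ} (hP : IsGeneric P t) {E : Divisor ℂ (FNK ℂ N)} (hE : 0 ≤ E)
    (hlin : LinEq E (tsum P)) : E = tsum P :=
  RRCPre.eq_tsum_of_linEq_of_sep (sepHyp N) hg hP hE hlin

end Fermat.Agent.MW.DivC.RRC
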