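/-
helper19 — MW / DIV-C, brick DIVC-6 (shadow copy): Lemma 1 and Lemma 2 of the generic-tuple
argument.
-/
import Mathlib
import Fermat.Agent.MW.DivC.Sep
import Fermat.Agent.MW.DivC.RRC
import Fermat.Agent.MW.Div.TorsFinC

set_option autoImplicit false
set_option linter.unusedSectionVars false

open AlgebraicCurve ModularCurve WithZero

noncomputable section

namespace Fermat.Agent.MW.DivC.Lemma12S

open Fermat.Agent.ESJ.Jac Fermat.Agent.MW.DivC Fermat.Agent.Lib.FF Fermat.Agent.MW.DivC.Values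
  Fermat.Agent.MW.DivC.Sep

variable {N : ℕ} [NeZero N]

theorem isGeneric_smul {g : ℕ} {P : Fin g → Place ℂ (FNK ℂ N)} {t : Fin g → ℂ}
    (hP : IsGeneric P t) (σ : ℂ ≃ₐ[ℚ] ℂ) :
    IsGeneric (fun k => rho N σ • P k) (fun k => σ (t k)) :=
  ⟨hP.1.map' (f := (σ : ℂ →ₐ[ℚ] ℂ)) σ.injective, fun i => val_jBarK_smul σ (hP.2 i)⟩

theorem tsum_nonneg {g : ℕ} (Q : Fin g → Place ℂ (FNK ℂ N)) : 0 ≤ tsum Q := by
  classical
  unfold tsum
  refine Finset.sum_nonneg fun i _ => Finsupp.le_def.mpr fun v => ?_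
  rw [Finsupp.single_apply]
  split_ifs <;> simp

theorem tsum_apply_pos {g : ℕ} (Q : Fin g → Place ℂ (FNK ℂ N)) (i : Fin g) :
    0 < tsum Q (Q i) := by
  classical
  unfold tsum
  rw [Finsupp.finsetSum_apply]
  have h1 : ∀ k ∈ Finset.univ, 0 ≤ (Finsupp.single (Q k) (1 : ℤ)) (Q i) := fun k _ => by
    rw [Finsupp.single_apply]
    split_ifs <;> simp
  have h2 := Finset.single_le_sum h1 (Finset.mem_univ i)
  rw [Finsupp.single_eq_same] at h2
  omega

/-- **Lemma 1.** If the translates of the sum of a generic tuple under the automorphisms of `ℂ`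
over the algebraically closed field `M` lie in finitely many classes, then the `j`-values of the
tuple lie in `M`. -/
theorem val_mem_of_finite_classes {g : ℕ} (hg : g ≤ genusFF ℂ (FNK ℂ N))
    (M : IntermediateField ℚ ℂ) [IsAlgClosed M] {P : Fin g → Place ℂ (FNK ℂ N)}
    {t : Fin g → ℂ} (hP : IsGeneric P t) (S : Finset (Divisor ℂ (FNK ℂ N)))
    (hS : ∀ σ ∈ M.fixingSubgroup, ∃ B ∈ S, LinEq (rho N σ • tsum P) B) : ∀ i, t i ∈ M := by
  intro i
  apply Field.mem_of_finite_orbit' M (t i)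
  set 𝒯 : Set (Divisor ℂ (FNK ℂ N)) :=
    {D | ∃ σ ∈ M.fixingSubgroup, D = rho N σ • tsum P} with h𝒯
  have h𝒯fin : 𝒯.Finite := by
    have hsub : 𝒯 ⊆ ⋃ B ∈ (S : Set (Divisor ℂ (FNK ℂ N))), {D | D ∈ 𝒯 ∧ LinEq D B} := by
      rintro D ⟨σ, hσ, rfl⟩
      obtain ⟨B, hB, hlin⟩ := hS σ hσ
      exact Set.mem_biUnion hB ⟨⟨σ, hσ, rfl⟩, hlin⟩
    refine (S.finite_toSet.biUnion fun B _ => Set.Subsingleton.finite ?_).subset hsub
    rintro D₁ ⟨⟨σ₁, hσ₁, rfl⟩, h1⟩ D₂ ⟨⟨σ₂, hσ₂, rfl⟩, h2⟩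
    have hlin : LinEq (rho N σ₁ • tsum P) (rho N σ₂ • tsum P) := linEq_trans h1 (linEq_symm h2)
    rw [rho_smul_tsum, rho_smul_tsum] at hlin ⊢
    exact RRC.eq_tsum_of_linEq N hg (isGeneric_smul hP σ₂) (tsum_nonneg _) hlin
  have hfin : (⋃ D ∈ 𝒯, {y : ℂ | ∃ Q ∈ D.support, Val Q (jBarK ℂ N) y}).Finite := by
    refine h𝒯fin.biUnion fun D _ => ?_
    have : {y : ℂ | ∃ Q ∈ D.support, Val Q (jBarK ℂ N) y}
        = ⋃ Q ∈ (D.support : Set (Place ℂ (FNK ℂ N))), {y | Val Q (jBarK ℂ N) y} := by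
      ext y; simp
    rw [this]
    exact D.support.finite_toSet.biUnion fun Q _ =>
      Set.Subsingleton.finite fun y hy y' hy' => val_unique hy hy'
  refine hfin.subset ?_
  rintro y ⟨σ, hσ, rfl⟩
  refine Set.mem_biUnion ⟨σ, hσ, rfl⟩ ⟨rho N σ • P i, ?_, val_jBarK_smul σ (hP.2 i)⟩
  rw [rho_smul_tsum, Finsupp.mem_support_iff]
  exact (tsum_apply_pos (fun k => rho N σ • P k) i).ne'

/-! ### Lemma 2 -/

theorem tsum_apply_of_injective {g : ℕ} {Q : Fin g → Place ℂ (FNK ℂ N)}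
    (hQ : Function.Injective Q) (i : Fin g) : tsum Q (Q i) = 1 := by
  classical
  unfold tsum
  rw [Finsupp.finsetSum_apply, Finset.sum_eq_single i]
  · rw [Finsupp.single_eq_same]
  · intro k _ hk
    rw [Finsupp.single_apply, if_neg (fun h => hk (hQ h))]
  · intro h
    exact absurd (Finset.mem_univ i) h

theorem tsum_apply_of_notMem {g : ℕ} {Q : Fin g → Place ℂ (FNK ℂ N)} {v : Place ℂ (FNK ℂ N)}
    (hv : ¬ ∃ i, Q i = v) : tsum Q v = 0 := by
  classical
  unfold tsum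
  rw [Finsupp.finsetSum_apply]
  refine Finset.sum_eq_zero fun k _ => ?_
  rw [Finsupp.single_apply, if_neg (fun h => hv ⟨k, h⟩)]

variable (N) in
theorem degree_tsum {g : ℕ} (Q : Fin g → Place ℂ (FNK ℂ N)) :
    Divisor.degree (tsum Q) = (g : ℤ) := by
  unfold tsum
  rw [map_sum]
  simp only [Divisor.degree_single, (isFF1_C N).deg_eq_one]
  simp

variable (N) in
theorem eq_zero_of_nonneg_of_degree {D : Divisor ℂ (FNK ℂ N)} (h0 : 0 ≤ D)
    (hd : Divisor.degree D = 0) : D = 0 := by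
  rw [(isFF1_C N).degree_eq_sum] at hd
  have h := (Finset.sum_eq_zero_iff_of_nonneg (fun v _ => Finsupp.le_def.mp h0 v)).1 hd
  ext v
  by_cases hv : v ∈ D.support
  · exact h v hv
  · simpa using hv

variable (N) in
/-- The finite set of (finite) `j`-values of the places in the support of an effective divisor. -/
theorem exists_valSet (E : Divisor ℂ (FNK ℂ N)) (hE : 0 ≤ E) :
    ∃ T : Finset ℂ, (∀ y, y ∈ T ↔ ∃ Q ∈ E.support, Val Q (jBarK ℂ N) y) ∧
      (T.card : ℤ) ≤ Divisor.degree E := by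
  classical
  let jv : Place ℂ (FNK ℂ N) → ℂ := fun Q =>
    if h : ∃ y, Val Q (jBarK ℂ N) y then h.choose else 0
  refine ⟨(E.support.filter (fun Q => ∃ y, Val Q (jBarK ℂ N) y)).image jv, fun y => ?_, ?_⟩
  · rw [Finset.mem_image]
    constructor
    · rintro ⟨Q, hQ, rfl⟩
      rw [Finset.mem_filter] at hQ
      refine ⟨Q, hQ.1, ?_⟩
      show Val Q (jBarK ℂ N) (if h : ∃ y, Val Q (jBarK ℂ N) y then h.choose else 0)
      rw [dif_pos hQ.2]
      exact hQ.2.choose_spec
    · rintro ⟨Q, hQ, hy⟩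
      refine ⟨Q, Finset.mem_filter.mpr ⟨hQ, ⟨y, hy⟩⟩, ?_⟩
      show (if h : ∃ y, Val Q (jBarK ℂ N) y then h.choose else 0) = y
      rw [dif_pos ⟨y, hy⟩]
      exact val_unique (Exists.choose_spec (⟨y, hy⟩ : ∃ y, Val Q (jBarK ℂ N) y)) hy
  · have h1 : ((E.support.filter (fun Q => ∃ y, Val Q (jBarK ℂ N) y)).image jv).card
        ≤ E.support.card :=
      Finset.card_image_le.trans (Finset.card_filter_le _ _)
    have h2 : (E.support.card : ℤ) ≤ Divisor.degree E := by
      rw [(isFF1_C N).degree_eq_sum]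
      have : (E.support.card : ℤ) = ∑ v ∈ E.support, (1 : ℤ) := by simp
      rw [this]
      refine Finset.sum_le_sum fun v hv => ?_
      have h3 := Finsupp.le_def.mp hE v
      have h4 := Finsupp.mem_support_iff.mp hv
      rw [Finsupp.coe_zero, Pi.zero_apply] at h3
      omega
    exact_mod_cast (Int.ofNat_le.mpr h1).trans h2

/-- **Lemma 2.** Let `(P, t)` be a generic `g`-tuple. Every effective divisor `E` of degree `g`
linearly equivalent to `m • ΣP_i + W`, `W` fixed by the automorphisms of `ℂ` over `ℚ̄`, is again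
the sum of a generic `g`-tuple. -/
theorem isGeneric_of_linEq {g : ℕ} (hg : g = genusFF ℂ (FNK ℂ N))
    {P : Fin g → Place ℂ (FNK ℂ N)} {t : Fin g → ℂ} (hP : IsGeneric P t) {m : ℕ} (hm : 0 < m)
    (W E : Divisor ℂ (FNK ℂ N)) (hW : ∀ σ ∈ Qbar.fixingSubgroup, rho N σ • W = W) (hE : 0 ≤ E)
    (hdeg : Divisor.degree E = (g : ℤ)) (hlin : LinEq E (m • tsum P + W)) :
    ∃ (P' : Fin g → Place ℂ (FNK ℂ N)) (t' : Fin g → ℂ), IsGeneric P' t' ∧ E = tsum P' := by
  classical
  obtain ⟨T, hT, hTcard⟩ := exists_valSet N E hE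
  have hTg : T.card ≤ g := by
    have := hTcard.trans hdeg.le
    exact_mod_cast this
  set M' : IntermediateField ℚ ℂ := algCl (T : Set ℂ) with hM'
  have hQM : Qbar ≤ M' := Field.qbar_le_algCl _
  have hΓ : ∀ σ ∈ M'.fixingSubgroup, σ ∈ Qbar.fixingSubgroup := fun σ hσ => by
    rw [IntermediateField.mem_fixingSubgroup_iff] at hσ ⊢
    exact fun x hx => hσ x (hQM hx)
  have hfixQ : ∀ σ ∈ M'.fixingSubgroup, ∀ Q ∈ E.support, rho N σ • Q = Q := by
    intro σ hσ Q hQ
    rcases exists_val_or_pole Q (jBarK ℂ N) with ⟨y, hy⟩ | hpole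
    · exact smul_eq_of_val N M'
        (Field.subset_algCl _ (Finset.mem_coe.mpr ((hT y).mpr ⟨Q, hQ, hy⟩))) hy hσ
    · exact smul_eq_of_pole N hpole (hΓ σ hσ)
  have hfixE : ∀ σ ∈ M'.fixingSubgroup, rho N σ • E = E := by
    intro σ hσ
    have hsum : E = ∑ Q ∈ E.support, Finsupp.single Q (E Q) := by
      conv_lhs => rw [← Finsupp.sum_single E]
      rfl
    rw [hsum, Finset.smul_sum]
    refine Finset.sum_congr rfl fun Q hQ => ?_
    rw [SemilinearAut.smul_single, hfixQ σ hσ Q (by rw [hsum] at hQ; rw [hsum]; exact hQ)]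
  have htor := Fermat.Agent.MW.Div.TorsFinC.finite_setOf_nsmul_eq_zero N hm
  choose R hR using fun x : Pic0 ℂ (FNK ℂ N) => Pic0.mk_surjective x
  set S : Finset (Divisor ℂ (FNK ℂ N)) :=
    htor.toFinset.image (fun x => tsum P + (R x : Divisor ℂ (FNK ℂ N))) with hSdef
  have hS : ∀ σ ∈ M'.fixingSubgroup, ∃ B ∈ S, LinEq (rho N σ • tsum P) B := by
    intro σ hσ
    have hdeg0 : rho N σ • tsum P - tsum P ∈ Divisor.degZero (K := ℂ) (F := FNK ℂ N) := by
      rw [Divisor.mem_degZero, map_sub, SemilinearAut.degree_smul, sub_self]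
    set x : Pic0 ℂ (FNK ℂ N) := Pic0.mk ⟨_, hdeg0⟩ with hx
    have hmx : m • x = 0 := by
      have h1 : LinEq (rho N σ • E) (rho N σ • (m • tsum P + W)) := linEq_smul hlin σ
      rw [hfixE σ hσ, smul_add, hW σ (hΓ σ hσ), smul_comm (rho N σ) m (tsum P)] at h1
      have h2 : LinEq (m • rho N σ • tsum P + W) (m • tsum P + W) :=
        linEq_trans (linEq_symm h1) hlin
      have h3 : m • (rho N σ • tsum P - tsum P) ∈ Divisor.principal (K := ℂ) (F := FNK ℂ N) := by
        have : m • (rho N σ • tsum P - tsum P)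
            = (m • rho N σ • tsum P + W) - (m • tsum P + W) := by
          rw [smul_sub]; abel
        rw [this]
        exact h2
      rw [hx]
      show m • (QuotientAddGroup.mk _ : Pic0 ℂ (FNK ℂ N)) = 0
      rw [← QuotientAddGroup.mk_nsmul, QuotientAddGroup.eq_zero_iff]
      exact h3
    refine ⟨tsum P + (R x : Divisor ℂ (FNK ℂ N)), ?_, ?_⟩
    · rw [hSdef, Finset.mem_image]
      exact ⟨x, (Set.Finite.mem_toFinset _).mpr hmx, rfl⟩
    · have h4 : Pic0.mk (R x) = Pic0.mk ⟨_, hdeg0⟩ := hR x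
      have h5 : (R x : Divisor ℂ (FNK ℂ N)) - (rho N σ • tsum P - tsum P)
          ∈ Divisor.principal (K := ℂ) (F := FNK ℂ N) := by
        have h6 := QuotientAddGroup.eq.mp h4.symm
        rw [AddSubgroup.mem_addSubgroupOf] at h6
        have : (R x : Divisor ℂ (FNK ℂ N)) - (rho N σ • tsum P - tsum P)
            = ((-(⟨_, hdeg0⟩ : Divisor.degZero (K := ℂ) (F := FNK ℂ N)) + R x :
                Divisor.degZero (K := ℂ) (F := FNK ℂ N)) : Divisor ℂ (FNK ℂ N)) := by
          push_cast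
          abel
        rw [this]
        exact h6
      unfold LinEq
      have : rho N σ • tsum P - (tsum P + (R x : Divisor ℂ (FNK ℂ N)))
          = -((R x : Divisor ℂ (FNK ℂ N)) - (rho N σ • tsum P - tsum P)) := by abel
      rw [this]
      exact neg_mem h5
  have htM := val_mem_of_finite_classes hg.le M' hP S hS
  obtain ⟨e, he⟩ := Field.exchange hP.1 T hTg htM
  have hex : ∀ i : Fin g, ∃ Q ∈ E.support, Val Q (jBarK ℂ N) (e i : ℂ) :=
    fun i => (hT _).mp (e i).2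
  choose P' hP'supp hP'val using hex
  refine ⟨P', fun i => (e i : ℂ), ⟨he, hP'val⟩, ?_⟩
  have hinj : Function.Injective P' := by
    intro i k hik
    have h1 := hP'val k
    rw [← hik] at h1
    exact e.injective (Subtype.ext (val_unique (hP'val i) h1))
  have hE' : ∀ v, 0 ≤ E v := fun v => Finsupp.le_def.mp hE v
  have hle : tsum P' ≤ E := by
    refine Finsupp.le_def.mpr fun v => ?_
    by_cases hv : ∃ i, P' i = v
    · obtain ⟨i, rfl⟩ := hv
      rw [tsum_apply_of_injective hinj i]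
      have h1 := hE' (P' i)
      have h2 := Finsupp.mem_support_iff.mp (hP'supp i)
      omega
    · rw [tsum_apply_of_notMem hv]
      exact hE' v
  have hzero : E - tsum P' = 0 := by
    apply eq_zero_of_nonneg_of_degree N
    · exact sub_nonneg.mpr hle
    · rw [map_sub, hdeg, degree_tsum, sub_self]
  exact sub_eq_zero.mp hzero

end Fermat.Agent.MW.DivC.Lemma12S
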