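/-
helper19 — MW / DIV-C, brick DIVC-7 (shadow copy): any two generic tuples are conjugate under
the automorphisms of `ℂ` over `ℚ̄`.
-/
import Mathlib
import Fermat.Agent.MW.DivC.ConjS
import Fermat.Agent.MW.DivC.Lemma12S

set_option autoImplicit false
set_option linter.unusedSectionVars false

open AlgebraicCurve ModularCurve WithZero

noncomputable section

namespace Fermat.Agent.MW.DivC.HomogS

open Fermat.Agent.ESJ.Jac Fermat.Agent.MW.DivC Fermat.Agent.Lib.FF Fermat.Agent.MW.DivC.Values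
  Fermat.Agent.MW.DivC.Sep

variable {N : ℕ} [NeZero N]

theorem mem_fixingSubgroup_qbar {M : IntermediateField ℚ ℂ} (hM : Qbar ≤ M) {σ : ℂ ≃ₐ[ℚ] ℂ}
    (hσ : σ ∈ M.fixingSubgroup) : σ ∈ Qbar.fixingSubgroup := by
  rw [IntermediateField.mem_fixingSubgroup_iff] at hσ ⊢
  exact fun x hx => hσ x (hM hx)

/-- **Homogeneity.** Any two generic tuples are conjugate under `Aut(ℂ/ℚ̄)`. -/
theorem exists_smul_eq_of_isGeneric {g : ℕ} {P P' : Fin g → Place ℂ (FNK ℂ N)}
    {t t' : Fin g → ℂ} (hP : IsGeneric P t) (hP' : IsGeneric P' t') :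
    ∃ σ ∈ Qbar.fixingSubgroup, ∀ i, rho N σ • P i = P' i := by
  have key : ∀ n : ℕ, n ≤ g → ∃ σ ∈ Qbar.fixingSubgroup,
      ∀ i : Fin g, (i : ℕ) < n → rho N σ • P i = P' i := by
    intro n
    induction n with
    | zero => exact fun _ => ⟨1, one_mem _, fun i hi => absurd hi (Nat.not_lt_zero _)⟩
    | succ n ih =>
      intro hn
      obtain ⟨σ, hσ, hσP⟩ := ih (Nat.le_of_succ_le hn)
      set i : Fin g := ⟨n, hn⟩ with hi
      have hgen := Lemma12S.isGeneric_smul hP σ
      have hval : ∀ k : Fin g, (k : ℕ) < n → σ (t k) = t' k := by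
        intro k hk
        have h1 := hgen.2 k
        simp only at h1
        rw [hσP k hk] at h1
        exact val_unique h1 (hP'.2 k)
      set M : IntermediateField ℚ ℂ := algCl (t' '' {k | k < i}) with hM
      have hset : (fun k => σ (t k)) '' {k | k < i} = t' '' {k | k < i} := by
        ext y
        constructor
        · rintro ⟨k, hk, rfl⟩
          exact ⟨k, hk, (hval k hk).symm⟩
        · rintro ⟨k, hk, rfl⟩
          exact ⟨k, hk, hval k hk⟩
      have hs : σ (t i) ∉ M := by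
        have := Field.not_mem_algCl_of_algebraicIndependent hgen.1 i
        rwa [hset] at this
      have ht' : t' i ∉ M := Field.not_mem_algCl_of_algebraicIndependent hP'.1 i
      obtain ⟨τ, hτ, hτQ⟩ := ConjS.exists_smul_eq_of_not_mem M (hgen.2 i) hs (hP'.2 i) ht'
      have hτq : τ ∈ Qbar.fixingSubgroup := mem_fixingSubgroup_qbar (Field.qbar_le_algCl _) hτ
      refine ⟨τ * σ, mul_mem hτq hσ, fun k hk => ?_⟩
      rw [map_mul, mul_smul]
      rcases Nat.lt_succ_iff_lt_or_eq.mp hk with hk' | hk'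
      · rw [hσP k hk']
        exact smul_eq_of_val N M (Field.subset_algCl _ ⟨k, hk', rfl⟩) (hP'.2 k) hτ
      · have hki : k = i := Fin.ext hk'
        rw [hki]
        exact hτQ
  obtain ⟨σ, hσ, h⟩ := key g le_rfl
  exact ⟨σ, hσ, fun i => h i i.2⟩

end Fermat.Agent.MW.DivC.HomogS
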