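/-
helper77 — MW / DIV-C, row 427 (DIVC-6): Lemma 1 and Lemma 2 of the generic-tuple route, with the
inputs of DIVC-2 (`Sep.smul_eq_of_val`, `Sep.smul_eq_of_pole`) and DIVC-4 (`RRC.eq_tsum_of_linEq`)
as explicit hypotheses (`hval`, `hpole`, `hRRC`); the literal row statements are in `Lemma12.lean`.

* `val_mem_of_finite_classes` (Lemma 1): if the `Γ_M`-translates of the divisor of a generic
  tuple fall into finitely many linear equivalence classes, the `j`-values of the tuple lie in `M`.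
* `isGeneric_of_linEq` (Lemma 2): an effective divisor of degree `g` linearly equivalent to
  `m • tsum P + W` (`P` generic, `W` fixed by `Γ_Qbar`) is again the divisor of a generic tuple.
-/
import Mathlib
import Fermat.Agent.MW.DivC.Values
import Fermat.Agent.MW.DivC.Field
import Fermat.Agent.MW.Div.TorsFinC

set_option autoImplicit false

open AlgebraicCurve ModularCurve

noncomputable section

namespace Fermat.Agent.MW.DivC.Lemma12Of

open Fermat.Agent.ESJ.Jac Fermat.Agent.MW.DivC Fermat.Agent.Lib.FF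
open Fermat.Agent.MW.DivC.Values Fermat.Agent.MW.DivC.Field

variable {N : ℕ} [NeZero N]

/-! ### Local laws for `tsum` -/

omit [NeZero N] in
theorem tsum_nonneg {g : ℕ} (P : Fin g → Place ℂ (FNK ℂ N)) : 0 ≤ tsum P := by
  classical
  unfold tsum
  refine Finset.sum_nonneg fun i _ => ?_
  intro v
  rw [Finsupp.single_apply]
  split_ifs <;> simp

omit [NeZero N] in
theorem tsum_apply_pos {g : ℕ} (P : Fin g → Place ℂ (FNK ℂ N)) (i : Fin g) :
    0 < tsum P (P i) := by
  classical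
  unfold tsum
  rw [Finsupp.finsetSum_apply]
  have h1 : ∀ k ∈ (Finset.univ : Finset (Fin g)),
      0 ≤ (Finsupp.single (P k) (1 : ℤ)) (P i) := by
    intro k _
    rw [Finsupp.single_apply]
    split_ifs <;> simp
  have h2 := Finset.single_le_sum h1 (Finset.mem_univ i)
  rw [Finsupp.single_eq_same] at h2
  omega

/-- Translates of generic tuples are generic. -/
theorem isGeneric_smul (σ : ℂ ≃ₐ[ℚ] ℂ) {g : ℕ} {P : Fin g → Place ℂ (FNK ℂ N)}
    {t : Fin g → ℂ} (hP : IsGeneric P t) :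
    IsGeneric (fun i => rho N σ • P i) (fun i => σ (t i)) := by
  refine ⟨hP.1.map' (f := (σ : ℂ →ₐ[ℚ] ℂ)) σ.injective, fun i => ?_⟩
  have h := val_jBarK_smul σ (hP.2 i)
  exact h

open Classical in
/-- The `j`-value of a place (`0` at the poles of `j`). -/
def jval (P : Place ℂ (FNK ℂ N)) : ℂ :=
  if h : ∃ c, Val P (jBarK ℂ N) c then h.choose else 0

theorem val_jval {P : Place ℂ (FNK ℂ N)} (h : ∃ c, Val P (jBarK ℂ N) c) :
    Val P (jBarK ℂ N) (jval P) := by
  unfold jval
  rw [dif_pos h]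
  exact h.choose_spec

theorem jval_eq {P : Place ℂ (FNK ℂ N)} {c : ℂ} (h : Val P (jBarK ℂ N) c) : jval P = c :=
  val_unique (val_jval ⟨c, h⟩) h

/-! ### Lemma 1 -/

/-- **Lemma 1.** If the `Γ_M`-translates of the divisor of a generic tuple lie in finitely many
linear equivalence classes, then the `j`-values of the tuple lie in `M`. -/
theorem val_mem_of_finite_classes_of {g : ℕ}
    (hRRC : ∀ {P' : Fin g → Place ℂ (FNK ℂ N)} {t' : Fin g → ℂ}, IsGeneric P' t' →
      ∀ {E : Divisor ℂ (FNK ℂ N)}, 0 ≤ E → LinEq E (tsum P') → E = tsum P')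
    (M : IntermediateField ℚ ℂ) [IsAlgClosed M]
    {P : Fin g → Place ℂ (FNK ℂ N)} {t : Fin g → ℂ} (hP : IsGeneric P t)
    (S : Finset (Divisor ℂ (FNK ℂ N)))
    (hS : ∀ σ ∈ M.fixingSubgroup, ∃ B ∈ S, LinEq (rho N σ • tsum P) B) : ∀ i, t i ∈ M := by
  intro i
  -- the translates of `tsum P` form a finite set
  have hDfin : {D : Divisor ℂ (FNK ℂ N) | ∃ σ ∈ M.fixingSubgroup, D = rho N σ • tsum P}.Finite := by
    have hsub : {D : Divisor ℂ (FNK ℂ N) | ∃ σ ∈ M.fixingSubgroup, D = rho N σ • tsum P} ⊆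
        ⋃ B ∈ (S : Set (Divisor ℂ (FNK ℂ N))),
          {D | (∃ σ ∈ M.fixingSubgroup, D = rho N σ • tsum P) ∧ LinEq D B} := by
      rintro D ⟨σ, hσ, rfl⟩
      obtain ⟨B, hB, hlin⟩ := hS σ hσ
      exact Set.mem_biUnion (Finset.mem_coe.mpr hB) ⟨⟨σ, hσ, rfl⟩, hlin⟩
    refine Set.Finite.subset
      (Set.Finite.biUnion S.finite_toSet fun B _ => Set.Subsingleton.finite ?_) hsub
    rintro D₁ ⟨⟨σ, hσ, rfl⟩, h₁⟩ D₂ ⟨⟨τ, hτ, rfl⟩, h₂⟩
    have hlin : LinEq (rho N τ • tsum P) (rho N σ • tsum P) := linEq_trans h₂ (linEq_symm h₁)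
    rw [rho_smul_tsum, rho_smul_tsum] at hlin ⊢
    exact (hRRC (isGeneric_smul σ hP) (tsum_nonneg _) hlin).symm
  -- the orbit of `P i` is finite
  have hPfin : {Q : Place ℂ (FNK ℂ N) | ∃ σ ∈ M.fixingSubgroup, Q = rho N σ • P i}.Finite := by
    refine Set.Finite.subset (Set.Finite.biUnion hDfin fun D _ => D.support.finite_toSet) ?_
    rintro Q ⟨σ, hσ, rfl⟩
    refine Set.mem_biUnion (x := rho N σ • tsum P) ⟨σ, hσ, rfl⟩ ?_
    rw [Finset.mem_coe, Finsupp.mem_support_iff, rho_smul_tsum]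
    exact (tsum_apply_pos (fun k => rho N σ • P k) i).ne'
  -- the orbit of `t i` is finite
  refine mem_of_finite_orbit' M (t i) (Set.Finite.subset (hPfin.image jval) ?_)
  rintro y ⟨σ, hσ, rfl⟩
  exact ⟨rho N σ • P i, ⟨σ, hσ, rfl⟩, jval_eq ((isGeneric_smul σ hP).2 i)⟩

/-! ### Lemma 2 -/

/-- The degree of an effective divisor of `F_ℂ` is the sum of its multiplicities. -/
theorem degree_eq_sum (E : Divisor ℂ (FNK ℂ N)) :
    Divisor.degree E = ∑ v ∈ E.support, E v := by
  have h : Divisor.degree E = E.sum fun v n => n * (v.deg : ℤ) := by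
    unfold Divisor.degree
    rw [Finsupp.liftAddHom_apply]
    rfl
  rw [h, Finsupp.sum]
  refine Finset.sum_congr rfl fun v _ => ?_
  rw [FinDimK.deg_eq_one_FNK ℂ N v, Nat.cast_one, mul_one]

/-- **Lemma 2.** An effective divisor of degree `g` linearly equivalent to `m • tsum P + W`, with
`P` generic and `W` fixed by `Γ_Qbar`, is the divisor of a generic tuple. -/
theorem isGeneric_of_linEq_of {g : ℕ}
    (hRRC : ∀ {P' : Fin g → Place ℂ (FNK ℂ N)} {t' : Fin g → ℂ}, IsGeneric P' t' →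
      ∀ {E : Divisor ℂ (FNK ℂ N)}, 0 ≤ E → LinEq E (tsum P') → E = tsum P')
    (hval : ∀ (M : IntermediateField ℚ ℂ) [IsAlgClosed M] {Q : Place ℂ (FNK ℂ N)} {c : ℂ},
      c ∈ M → Val Q (jBarK ℂ N) c → ∀ {σ : ℂ ≃ₐ[ℚ] ℂ}, σ ∈ M.fixingSubgroup → rho N σ • Q = Q)
    (hpole : ∀ {Q : Place ℂ (FNK ℂ N)}, Q.ord (jBarK ℂ N) < 0 →
      ∀ {σ : ℂ ≃ₐ[ℚ] ℂ}, σ ∈ Qbar.fixingSubgroup → rho N σ • Q = Q)
    {P : Fin g → Place ℂ (FNK ℂ N)} {t : Fin g → ℂ} (hP : IsGeneric P t) {m : ℕ} (hm : 0 < m)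
    (W E : Divisor ℂ (FNK ℂ N)) (hW : ∀ σ ∈ Qbar.fixingSubgroup, rho N σ • W = W) (hE : 0 ≤ E)
    (hdeg : Divisor.degree E = (g : ℤ)) (hlin : LinEq E (m • tsum P + W)) :
    ∃ (P' : Fin g → Place ℂ (FNK ℂ N)) (t' : Fin g → ℂ), IsGeneric P' t' ∧ E = tsum P' := by
  classical
  set supp : Finset (Place ℂ (FNK ℂ N)) := E.support with hsupp
  set supp' : Finset (Place ℂ (FNK ℂ N)) :=
    supp.filter fun v => ∃ c, Val v (jBarK ℂ N) c with hsupp'
  set T' : Finset ℂ := supp'.image jval with hT'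
  -- multiplicities
  have hE1 : ∀ v ∈ supp, 1 ≤ E v := by
    intro v hv
    have h0 : 0 ≤ E v := hE v
    have h1 : E v ≠ 0 := Finsupp.mem_support_iff.mp hv
    omega
  have hsum : ∑ v ∈ supp, E v = (g : ℤ) := by rw [← hdeg, degree_eq_sum]
  have hcard_supp : supp.card ≤ g := by
    have h1 : ∑ _v ∈ supp, (1 : ℤ) ≤ ∑ v ∈ supp, E v := Finset.sum_le_sum hE1
    rw [hsum, Finset.sum_const, nsmul_eq_mul, mul_one] at h1
    exact_mod_cast h1
  have hcard_supp' : supp'.card ≤ supp.card := Finset.card_filter_le _ _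
  have hcard_T' : T'.card ≤ supp'.card := Finset.card_image_le
  have hT'g : T'.card ≤ g := hcard_T'.trans (hcard_supp'.trans hcard_supp)
  -- the field `M'`
  set M' : IntermediateField ℚ ℂ := algCl (T' : Set ℂ) with hM'
  have hΓ : ∀ σ : ℂ ≃ₐ[ℚ] ℂ, σ ∈ M'.fixingSubgroup → σ ∈ Qbar.fixingSubgroup := by
    intro σ hσ
    rw [IntermediateField.mem_fixingSubgroup_iff] at hσ ⊢
    exact fun x hx => hσ x (qbar_le_algCl _ hx)
  -- `Γ_{M'}` fixes the places of `supp`, hence `E`, and `W`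
  have hfixpl : ∀ σ ∈ M'.fixingSubgroup, ∀ v ∈ supp, rho N σ • v = v := by
    intro σ hσ v hv
    rcases exists_val_or_pole v (jBarK ℂ N) with hc | hpole'
    · have hmem : jval v ∈ M' :=
        subset_algCl _ (Finset.mem_coe.mpr
          (Finset.mem_image.mpr ⟨v, Finset.mem_filter.mpr ⟨hv, hc⟩, rfl⟩))
      exact hval M' hmem (val_jval hc) hσ
    · exact hpole hpole' (hΓ σ hσ)
  have hEsum : E = ∑ v ∈ supp, Finsupp.single v (E v) := (Finsupp.sum_single E).symm
  have hfixE : ∀ σ ∈ M'.fixingSubgroup, rho N σ • E = E := by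
    intro σ hσ
    have h1 : rho N σ • (∑ v ∈ supp, Finsupp.single v (E v))
        = ∑ v ∈ supp, Finsupp.single v (E v) := by
      rw [Finset.smul_sum]
      refine Finset.sum_congr rfl fun v hv => ?_
      rw [SemilinearAut.smul_single, hfixpl σ hσ v hv]
    rwa [← hEsum] at h1
  -- the translates of `tsum P` under `Γ_{M'}` lie in finitely many classes
  have htor := Fermat.Agent.MW.Div.TorsFinC.finite_setOf_nsmul_eq_zero N hm
  obtain ⟨rep, hrep⟩ : ∃ rep : Pic0 ℂ (FNK ℂ N) → Divisor.degZero (K := ℂ) (F := FNK ℂ N),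
      ∀ x, Pic0.mk (rep x) = x :=
    ⟨fun x => (Pic0.mk_surjective x).choose, fun x => (Pic0.mk_surjective x).choose_spec⟩
  have hS : ∀ σ ∈ M'.fixingSubgroup,
      ∃ B ∈ htor.toFinset.image (fun x => tsum P + (rep x : Divisor ℂ (FNK ℂ N))),
        LinEq (rho N σ • tsum P) B := by
    intro σ hσ
    have hdeg0 : rho N σ • tsum P - tsum P ∈ Divisor.degZero (K := ℂ) (F := FNK ℂ N) := by
      rw [Divisor.mem_degZero, map_sub, SemilinearAut.degree_smul, sub_self]
    -- `m • (σ tsum P - tsum P)` is principal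
    have hprin : m • (rho N σ • tsum P - tsum P) ∈ Divisor.principal (K := ℂ) (F := FNK ℂ N) := by
      have ha : E - (m • tsum P + W) ∈ Divisor.principal (K := ℂ) (F := FNK ℂ N) := hlin
      have hb : rho N σ • E - rho N σ • (m • tsum P + W)
          ∈ Divisor.principal (K := ℂ) (F := FNK ℂ N) := linEq_smul hlin σ
      rw [hfixE σ hσ, smul_add, hW σ (hΓ σ hσ), smul_comm] at hb
      have hc := sub_mem ha hb
      have he : E - (m • tsum P + W) - (E - (m • rho N σ • tsum P + W))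
          = m • (rho N σ • tsum P - tsum P) := by
        rw [nsmul_sub]; abel
      rwa [he] at hc
    set x : Pic0 ℂ (FNK ℂ N) := Pic0.mk ⟨rho N σ • tsum P - tsum P, hdeg0⟩ with hx
    have hmx : m • x = 0 := by
      rw [hx]
      show m • (QuotientAddGroup.mk _ : Pic0 ℂ (FNK ℂ N)) = 0
      rw [← QuotientAddGroup.mk_nsmul, QuotientAddGroup.eq_zero_iff,
        AddSubgroup.mem_addSubgroupOf]
      exact hprin
    refine ⟨tsum P + (rep x : Divisor ℂ (FNK ℂ N)),
      Finset.mem_image.mpr ⟨x, (Set.Finite.mem_toFinset _).mpr hmx, rfl⟩, ?_⟩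
    have h1 : Pic0.mk (rep x) = Pic0.mk ⟨rho N σ • tsum P - tsum P, hdeg0⟩ := hrep x
    have h2 := QuotientAddGroup.eq.mp h1
    rw [AddSubgroup.mem_addSubgroupOf] at h2
    have h3 : rho N σ • tsum P - (tsum P + (rep x : Divisor ℂ (FNK ℂ N)))
        = ((-(rep x) + ⟨rho N σ • tsum P - tsum P, hdeg0⟩ :
            Divisor.degZero (K := ℂ) (F := FNK ℂ N)) : Divisor ℂ (FNK ℂ N)) := by
      push_cast
      abel
    unfold LinEq
    rw [h3]
    exact h2
  -- Lemma 1 and the exchange lemma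
  have htM : ∀ i, t i ∈ M' := val_mem_of_finite_classes_of hRRC M' hP _ hS
  obtain ⟨e, he⟩ := exchange hP.1 T' hT'g htM
  have hTcard : T'.card = g := by
    have h := Fintype.card_congr e
    rw [Fintype.card_fin, Fintype.card_coe] at h
    exact h.symm
  -- all places of `supp` are finite, with distinct `j`-values and multiplicity one
  have hs'card : supp'.card = g := le_antisymm (hcard_supp'.trans hcard_supp) (hTcard ▸ hcard_T')
  have hscard : supp.card = g := le_antisymm hcard_supp (hs'card ▸ hcard_supp')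
  have hs'eq : supp' = supp :=
    Finset.eq_of_subset_of_card_le (Finset.filter_subset _ _) (by rw [hs'card, hscard])
  have hinj : Set.InjOn jval (supp' : Set (Place ℂ (FNK ℂ N))) :=
    Finset.card_image_iff.mp (by rw [← hT', hTcard, hs'card])
  have hmult : ∀ v ∈ supp, E v = 1 := by
    have h0 : ∑ v ∈ supp, (E v - 1) = 0 := by
      rw [Finset.sum_sub_distrib, hsum, Finset.sum_const, nsmul_eq_mul, mul_one, hscard, sub_self]
    have h1 := (Finset.sum_eq_zero_iff_of_nonneg
      (fun v hv => by have := hE1 v hv; omega)).mp h0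
    intro v hv
    have := h1 v hv
    omega
  -- the tuple
  have hex : ∀ i : Fin g, ∃ v ∈ supp', jval v = (e i : ℂ) := fun i =>
    Finset.mem_image.mp (e i).2
  choose P' hP'mem hP'val using hex
  have hP'inj : Function.Injective P' := by
    intro i k hik
    apply e.injective
    apply Subtype.ext
    rw [← hP'val i, ← hP'val k, hik]
  refine ⟨P', fun i => (e i : ℂ), ⟨he, fun i => ?_⟩, ?_⟩
  · have h := val_jval (Finset.mem_filter.mp (hP'mem i)).2
    rwa [hP'val] at h
  · have himg : Finset.univ.image P' = supp := by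
      refine Finset.eq_of_subset_of_card_le ?_ ?_
      · intro v hv
        obtain ⟨i, -, rfl⟩ := Finset.mem_image.mp hv
        exact hs'eq ▸ hP'mem i
      · rw [Finset.card_image_of_injective _ hP'inj, Finset.card_univ, Fintype.card_fin, hscard]
    unfold tsum
    rw [← Finset.sum_image (f := fun v => Finsupp.single v (1 : ℤ))
      (fun i _ k _ h => hP'inj h), himg]
    conv_lhs => rw [hEsum]
    exact Finset.sum_congr rfl fun v hv => by rw [hmult v hv]

end Fermat.Agent.MW.DivC.Lemma12Of
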