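/-
helper77 — MW / DIV-C, row 427 (DIVC-6): Lemma 1 and Lemma 2 of the generic-tuple route
(literal row statements; proofs in `Lemma12Of.lean`).

* `val_mem_of_finite_classes` (Lemma 1): if the `Γ_M`-translates of the divisor of a generic
  tuple fall into finitely many linear equivalence classes, the `j`-values of the tuple lie in `M`.
* `isGeneric_of_linEq` (Lemma 2): an effective divisor of degree `g` linearly equivalent to
  `m • tsum P + W` (`P` generic, `W` fixed by `Γ_Qbar`) is again the divisor of a generic tuple.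
-/
import Mathlib
import Fermat.Agent.MW.DivC.Lemma12Of
import Fermat.Agent.MW.DivC.Sep
import Fermat.Agent.MW.DivC.RRC

set_option autoImplicit false

open AlgebraicCurve ModularCurve

noncomputable section

namespace Fermat.Agent.MW.DivC.Lemma12

open Fermat.Agent.ESJ.Jac Fermat.Agent.MW.DivC Fermat.Agent.Lib.FF
open Fermat.Agent.MW.DivC.Values Fermat.Agent.MW.DivC.Field

variable (N : ℕ) [NeZero N]

/-- **Lemma 1.** If the `Γ_M`-translates of the divisor of a generic tuple lie in finitely many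
linear equivalence classes, then the `j`-values of the tuple lie in `M`. -/
theorem val_mem_of_finite_classes {g : ℕ} (hg : g ≤ genusFF ℂ (FNK ℂ N))
    (M : IntermediateField ℚ ℂ) [IsAlgClosed M]
    {P : Fin g → Place ℂ (FNK ℂ N)} {t : Fin g → ℂ} (hP : IsGeneric P t)
    (S : Finset (Divisor ℂ (FNK ℂ N)))
    (hS : ∀ σ ∈ M.fixingSubgroup, ∃ B ∈ S, LinEq (rho N σ • tsum P) B) : ∀ i, t i ∈ M :=
  Lemma12Of.val_mem_of_finite_classes_of
    (fun hP' _ hE hlin => RRC.eq_tsum_of_linEq (N := N) hg hP' hE hlin) M hP S hS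

/-- **Lemma 2.** An effective divisor of degree `g` linearly equivalent to `m • tsum P + W`, with
`P` generic and `W` fixed by `Γ_Qbar`, is the divisor of a generic tuple. -/
theorem isGeneric_of_linEq {g : ℕ} (hg : g = genusFF ℂ (FNK ℂ N))
    {P : Fin g → Place ℂ (FNK ℂ N)} {t : Fin g → ℂ} (hP : IsGeneric P t) {m : ℕ} (hm : 0 < m)
    (W E : Divisor ℂ (FNK ℂ N)) (hW : ∀ σ ∈ Qbar.fixingSubgroup, rho N σ • W = W) (hE : 0 ≤ E)
    (hdeg : Divisor.degree E = (g : ℤ)) (hlin : LinEq E (m • tsum P + W)) :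
    ∃ (P' : Fin g → Place ℂ (FNK ℂ N)) (t' : Fin g → ℂ), IsGeneric P' t' ∧ E = tsum P' :=
  Lemma12Of.isGeneric_of_linEq_of
    (fun hP' _ hE' hlin' => RRC.eq_tsum_of_linEq (N := N) hg.le hP' hE' hlin')
    (fun M _ _ _ ht hQ _ hσ => Sep.smul_eq_of_val (N := N) M ht hQ hσ)
    (fun hQ _ hσ => Sep.smul_eq_of_pole (N := N) hQ hσ)
    hP hm W E hW hE hdeg hlin

end Fermat.Agent.MW.DivC.Lemma12
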