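/-
helper86 — MW / DIV-C, row DIVC-8 (Main): `Γ_ℚ̄`-invariant degree-zero divisors of `F_ℂ = ℂ·F_N`
are `n`-divisible up to principal divisors, and `J₀(N)(ℚ̄)` is divisible.

Proof (helper19's cut #2928): take a generic `g`-tuple `P` (`g` the genus), `P₀` the Galois-fixed
place, `A = ΣP_i − g·P₀`.  By Riemann there are effective `E₁ ~ n·ΣP_i − (n−1)g·P₀` and
`E₂ ~ ΣP_i + D`; both are sums of generic tuples (`Lemma12S.isGeneric_of_linEq`), hence conjugate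
to `ΣP_i` under `Γ_ℚ̄` (`HomogS`): `σ₁A ~ nA`, `σ₂A ~ A + D`, so `D ~ n(σ₂σ₁⁻¹A − σ₁⁻¹A)`.
-/
import Mathlib
import Fermat.Agent.MW.DivC.Values
import Fermat.Agent.MW.DivC.Field
import Fermat.Agent.MW.DivC.Sep
import Fermat.Agent.MW.DivC.RRC
import Fermat.Agent.MW.DivC.Lemma12S
import Fermat.Agent.MW.DivC.HomogS
import Fermat.Agent.MW.Div.BCVal

set_option autoImplicit false
set_option linter.style.haveILetI false
set_option linter.deprecated false

open AlgebraicCurve ModularCurve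

noncomputable section

namespace Fermat.Agent.MW.DivC

open Fermat.Agent.ESJ.Jac Fermat.Agent.Lib.FF Fermat.Agent.MW.DivC.Values

variable {N : ℕ} [NeZero N]

namespace Main

/-- Linearly equivalent divisors have the same degree. -/
theorem degree_eq_of_linEq {D E : Divisor ℂ (FNK ℂ N)} (h : LinEq D E) :
    Divisor.degree D = Divisor.degree E := by
  obtain ⟨f, hf, hv⟩ := linEq_iff.mp h
  have := (isFF1_C N).hasPrincipalDivisors
  obtain ⟨D', hD', hdeg⟩ := HasPrincipalDivisors.exists_divisor (K := ℂ) f hf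
  have hDE : D = E + D' := by
    ext v
    rw [Finsupp.add_apply, hv v, hD' v]
  rw [hDE, map_add, hdeg, add_zero]

theorem degree_tsum {g : ℕ} (P : Fin g → Place ℂ (FNK ℂ N)) :
    Divisor.degree (tsum P) = (g : ℤ) := by
  unfold tsum
  rw [map_sum]
  simp [Divisor.degree_single, (isFF1_C N).deg_eq_one]

omit [NeZero N] in
theorem rho_inv_smul_smul (σ : ℂ ≃ₐ[ℚ] ℂ) (D : Divisor ℂ (FNK ℂ N)) :
    rho N σ⁻¹ • rho N σ • D = D := by
  rw [map_inv, inv_smul_smul]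

end Main

open Main

/-- **DIVC-8.** A degree-zero divisor of `F_ℂ` fixed by `Aut(ℂ/ℚ̄)` is, up to the divisor of a
function, `n` times a divisor. -/
theorem exists_fun_of_fixed {n : ℕ} (hn : 0 < n) (D : Divisor ℂ (FNK ℂ N))
    (hdeg : Divisor.degree D = 0)
    (hfix : ∀ σ ∈ Qbar.fixingSubgroup, rho N σ • D = D) :
    ∃ G : FNK ℂ N, G ≠ 0 ∧ ∀ w : Place ℂ (FNK ℂ N), (n : ℤ) ∣ D w - w.ord G := by
  obtain ⟨m, rfl⟩ : ∃ m, n = m + 1 := ⟨n - 1, by omega⟩
  set g := genusFF ℂ (FNK ℂ N) with hg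
  -- the generic tuple and the fixed place
  obtain ⟨t, ht⟩ := Field.exists_algebraicIndependent g
  choose P hPt using fun i => exists_place_val N (t i)
  have hP : IsGeneric P t := ⟨ht, hPt⟩
  obtain ⟨P₀, hP₀⟩ := exists_fixed_place N
  set T : Divisor ℂ (FNK ℂ N) := tsum P with hT
  set B₀ : Divisor ℂ (FNK ℂ N) := Finsupp.single P₀ (1 : ℤ) with hB₀
  have hB₀fix : ∀ σ : ℂ ≃ₐ[ℚ] ℂ, rho N σ • B₀ = B₀ := fun σ => by
    rw [hB₀, SemilinearAut.smul_single, hP₀]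
  have hdegT : Divisor.degree T = (g : ℤ) := degree_tsum P
  have hdegB₀ : Divisor.degree B₀ = 1 := by
    rw [hB₀, Divisor.degree_single, (isFF1_C N).deg_eq_one]
    simp
  -- the first effective divisor
  set W₁ : Divisor ℂ (FNK ℂ N) := -((m * g) • B₀) with hW₁
  have hW₁fix : ∀ σ ∈ Qbar.fixingSubgroup, rho N σ • W₁ = W₁ := fun σ _ => by
    rw [hW₁, smul_neg, smul_comm, hB₀fix]
  have hdeg₁ : Divisor.degree ((m + 1) • T + W₁) = (g : ℤ) := by
    rw [map_add, map_nsmul, hW₁, map_neg, map_nsmul, hdegT, hdegB₀]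
    simp only [nsmul_eq_mul, Nat.cast_add, Nat.cast_one, Nat.cast_mul, mul_one]
    ring
  obtain ⟨E₁, hE₁, hlin₁⟩ := RRC.exists_effective N _ hdeg₁
  obtain ⟨P₁, t₁, hP₁, hE₁P⟩ := Lemma12S.isGeneric_of_linEq hg hP (Nat.succ_pos m) W₁ E₁ hW₁fix
    hE₁ ((degree_eq_of_linEq hlin₁).trans hdeg₁) hlin₁
  -- the second effective divisor
  have hdeg₂ : Divisor.degree (1 • T + D) = (g : ℤ) := by
    rw [map_add, one_nsmul, hdegT, hdeg, add_zero]
  obtain ⟨E₂, hE₂, hlin₂⟩ := RRC.exists_effective N _ hdeg₂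
  obtain ⟨P₂, t₂, hP₂, hE₂P⟩ := Lemma12S.isGeneric_of_linEq hg hP Nat.one_pos D E₂ hfix
    hE₂ ((degree_eq_of_linEq hlin₂).trans hdeg₂) hlin₂
  -- conjugating automorphisms
  obtain ⟨σ₁, -, hσ₁⟩ := HomogS.exists_smul_eq_of_isGeneric hP hP₁
  obtain ⟨σ₂, -, hσ₂⟩ := HomogS.exists_smul_eq_of_isGeneric hP hP₂
  have hσ₁T : rho N σ₁ • T = E₁ := by
    rw [hT, rho_smul_tsum, hE₁P]
    exact congrArg tsum (funext hσ₁)
  have hσ₂T : rho N σ₂ • T = E₂ := by
    rw [hT, rho_smul_tsum, hE₂P]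
    exact congrArg tsum (funext hσ₂)
  set A : Divisor ℂ (FNK ℂ N) := T - g • B₀ with hA
  -- `σ₁ A ~ n A`
  have ha : LinEq (rho N σ₁ • A) ((m + 1) • A) := by
    have h1 : rho N σ₁ • A = E₁ - g • B₀ := by
      rw [hA, smul_sub, hσ₁T, smul_comm, hB₀fix]
    have h2 : (m + 1) • A = ((m + 1) • T + W₁) - g • B₀ := by
      rw [hA, hW₁, smul_sub, smul_smul]
      have : ((m + 1) * g) • B₀ = (m * g) • B₀ + g • B₀ := by
        rw [add_mul, one_mul, add_smul]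
      rw [this]
      abel
    rw [h1, h2]
    exact linEq_sub hlin₁ (linEq_refl _)
  -- `σ₂ A ~ A + D`
  have hb : LinEq (rho N σ₂ • A) (A + D) := by
    have h1 : rho N σ₂ • A = E₂ - g • B₀ := by
      rw [hA, smul_sub, hσ₂T, smul_comm, hB₀fix]
    have h2 : A + D = (1 • T + D) - g • B₀ := by
      rw [hA, one_nsmul]
      abel
    rw [h1, h2]
    exact linEq_sub hlin₂ (linEq_refl _)
  -- `A ~ n σ₁⁻¹ A`
  have hc : LinEq A ((m + 1) • (rho N σ₁⁻¹ • A)) := by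
    have := linEq_smul ha σ₁⁻¹
    rwa [rho_inv_smul_smul, smul_comm] at this
  -- `σ₂ A ~ n σ₂ σ₁⁻¹ A`
  have hd : LinEq (rho N σ₂ • A) ((m + 1) • (rho N σ₂ • rho N σ₁⁻¹ • A)) := by
    have := linEq_smul hc σ₂
    rwa [smul_comm] at this
  have he : LinEq (A + D) ((m + 1) • (rho N σ₂ • rho N σ₁⁻¹ • A)) :=
    linEq_trans (linEq_symm hb) hd
  have hf : LinEq D ((m + 1) • (rho N σ₂ • rho N σ₁⁻¹ • A - rho N σ₁⁻¹ • A)) := by
    have := linEq_sub he hc
    rwa [add_sub_cancel_left, ← smul_sub] at this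
  obtain ⟨G, hG, hGv⟩ := linEq_iff.mp hf
  refine ⟨G, hG, fun w => ?_⟩
  rw [hGv w, add_sub_cancel_right, Finsupp.smul_apply, nsmul_eq_mul]
  exact dvd_mul_right _ _

/-- **`J₀(N)(ℚ̄)` is divisible.** -/
theorem jZero_divisible (N : ℕ) [NeZero N] {n : ℕ} (hn : 0 < n) (x : JZero N) :
    ∃ y : JZero N, n • y = x :=
  Fermat.Agent.MW.Div.jzero_divisible_of_fixed N hn
    (fun {_} {_} ht hP {_} hσ => Sep.smul_eq_of_val N Qbar ht hP hσ)
    (fun {_} hP {_} hσ => Sep.smul_eq_of_pole N hP hσ)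
    (fun D hdeg hfix => exists_fun_of_fixed hn D hdeg hfix) x

end Fermat.Agent.MW.DivC
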