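/-
helper19 — MW / DIV-C, brick DIVC-8 (shadow copy): divisors of degree zero fixed by `Aut(ℂ/ℚ̄)`
are `n`-divisible up to principal divisors, and `J₀(N)(ℚ̄)` is a divisible group.
-/
import Mathlib
import Fermat.Agent.MW.DivC.HomogS
import Fermat.Agent.MW.Div.BCVal

set_option autoImplicit false
set_option linter.unusedSectionVars false

open AlgebraicCurve ModularCurve WithZero

noncomputable section

namespace Fermat.Agent.MW.DivC.MainS

open Fermat.Agent.ESJ.Jac Fermat.Agent.MW.DivC Fermat.Agent.Lib.FF Fermat.Agent.MW.DivC.Values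
  Fermat.Agent.MW.DivC.Sep

variable (N : ℕ) [NeZero N]

/-- Linearly equivalent divisors have the same degree. -/
theorem degree_eq_of_linEq {D E : Divisor ℂ (FNK ℂ N)} (h : LinEq D E) :
    Divisor.degree D = Divisor.degree E := by
  have := (isFF1_C N).hasPrincipalDivisors
  obtain ⟨f, hf, hDE⟩ := h
  obtain ⟨D', hD', hdeg⟩ := HasPrincipalDivisors.exists_divisor (K := ℂ) f hf
  have heq : D - E = D' := by
    ext v
    rw [hDE v, hD' v]
  have h1 : Divisor.degree (D - E) = 0 := by rw [heq, hdeg]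
  rw [map_sub] at h1
  exact sub_eq_zero.mp h1

/-- **DIV-C, complex half.** A divisor of degree zero of `F_ℂ` which is fixed by the automorphisms
of `ℂ` over `ℚ̄` is `n` times a divisor, up to a principal divisor. -/
theorem exists_fun_of_fixed {n : ℕ} (hn : 0 < n) (D : Divisor ℂ (FNK ℂ N))
    (hdeg : Divisor.degree D = 0)
    (hfix : ∀ σ ∈ Qbar.fixingSubgroup, rho N σ • D = D) :
    ∃ G : FNK ℂ N, G ≠ 0 ∧ ∀ w : Place ℂ (FNK ℂ N), (n : ℤ) ∣ D w - w.ord G := by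
  have hFF := isFF1_C N
  obtain ⟨g, hg⟩ : ∃ g : ℕ, g = genusFF ℂ (FNK ℂ N) := ⟨_, rfl⟩
  obtain ⟨t, ht⟩ := Field.exists_algebraicIndependent g
  choose P hPval using fun i : Fin g => exists_place_val N (t i)
  have hP : IsGeneric P t := ⟨ht, hPval⟩
  obtain ⟨P₀, hP₀⟩ := exists_fixed_place N
  set W₁ : Divisor ℂ (FNK ℂ N) := Finsupp.single P₀ (-(((n : ℤ) - 1) * g)) with hW₁
  have hW₁fix : ∀ σ : ℂ ≃ₐ[ℚ] ℂ, rho N σ • W₁ = W₁ := fun σ => by
    rw [hW₁, SemilinearAut.smul_single, hP₀ σ]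
  have hdeg₁ : Divisor.degree (n • tsum P + W₁) = (genusFF ℂ (FNK ℂ N) : ℤ) := by
    rw [map_add, map_nsmul, Lemma12S.degree_tsum, hW₁, Divisor.degree_single, hFF.deg_eq_one,
      ← hg]
    push_cast
    ring
  obtain ⟨E₁, hE₁, hlin₁⟩ := RRC.exists_effective N _ hdeg₁
  have hdegE₁ : Divisor.degree E₁ = (g : ℤ) := by
    rw [degree_eq_of_linEq N hlin₁, hdeg₁, hg]
  obtain ⟨Pa, ta, hPa, hE₁eq⟩ :=
    Lemma12S.isGeneric_of_linEq hg hP hn W₁ E₁ (fun σ _ => hW₁fix σ) hE₁ hdegE₁ hlin₁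
  have hdeg₂ : Divisor.degree (1 • tsum P + D) = (genusFF ℂ (FNK ℂ N) : ℤ) := by
    rw [map_add, map_nsmul, Lemma12S.degree_tsum, hdeg, ← hg]
    simp
  obtain ⟨E₂, hE₂, hlin₂⟩ := RRC.exists_effective N _ hdeg₂
  have hdegE₂ : Divisor.degree E₂ = (g : ℤ) := by
    rw [degree_eq_of_linEq N hlin₂, hdeg₂, hg]
  obtain ⟨Pb, tb, hPb, hE₂eq⟩ :=
    Lemma12S.isGeneric_of_linEq hg hP Nat.one_pos D E₂ hfix hE₂ hdegE₂ hlin₂
  obtain ⟨σ₁, hσ₁, hσ₁P⟩ := HomogS.exists_smul_eq_of_isGeneric hP hPa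
  obtain ⟨σ₂, hσ₂, hσ₂P⟩ := HomogS.exists_smul_eq_of_isGeneric hP hPb
  have hA : LinEq (rho N σ₁ • tsum P) (n • tsum P + W₁) := by
    rw [rho_smul_tsum, funext hσ₁P, ← hE₁eq]
    exact hlin₁
  have hB : LinEq (rho N σ₂ • tsum P) (tsum P + D) := by
    rw [rho_smul_tsum, funext hσ₂P, ← hE₂eq]
    rw [one_smul] at hlin₂
    exact hlin₂
  set Y : Divisor ℂ (FNK ℂ N) := rho N σ₁⁻¹ • tsum P with hY
  have hA' : LinEq (tsum P) (n • Y + W₁) := by
    have h := linEq_smul hA σ₁⁻¹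
    rwa [map_inv, inv_smul_smul, smul_add, ← map_inv, hW₁fix, smul_comm (rho N σ₁⁻¹) n (tsum P)]
      at h
  have hA'' : LinEq (rho N σ₂ • tsum P) (n • rho N σ₂ • Y + W₁) := by
    have h := linEq_smul hA' σ₂
    rwa [smul_add, hW₁fix, smul_comm (rho N σ₂) n Y] at h
  have h1 : LinEq (rho N σ₂ • tsum P - tsum P) D := by
    have h := linEq_sub hB (linEq_refl (tsum P))
    rwa [add_sub_cancel_left] at h
  have h2 : LinEq (rho N σ₂ • tsum P - tsum P) (n • (rho N σ₂ • Y - Y)) := by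
    have h := linEq_sub hA'' hA'
    have e : n • rho N σ₂ • Y + W₁ - (n • Y + W₁) = n • (rho N σ₂ • Y - Y) := by
      rw [smul_sub]; abel
    rwa [e] at h
  have h3 : LinEq D (n • (rho N σ₂ • Y - Y)) := linEq_trans (linEq_symm h1) h2
  obtain ⟨f, hf, h⟩ := linEq_iff.mp h3
  refine ⟨f, hf, fun w => ⟨(rho N σ₂ • Y - Y) w, ?_⟩⟩
  rw [h w, Finsupp.smul_apply, nsmul_eq_mul]
  ring

/-- **(DIV)** `J₀(N)(ℚ̄) = Pic⁰(ℚ̄·F_N)` is a divisible group. -/
theorem jZero_divisible (N : ℕ) [NeZero N] {n : ℕ} (hn : 0 < n) (x : JZero N) :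
    ∃ y : JZero N, n • y = x :=
  Fermat.Agent.MW.Div.jzero_divisible_of_fixed N hn
    (fun ht hP _ hσ => smul_eq_of_val N Qbar ht hP hσ)
    (fun hP _ hσ => smul_eq_of_pole N hP hσ)
    (fun D hdeg hfix => exists_fun_of_fixed N hn D hdeg hfix) x

end Fermat.Agent.MW.DivC.MainS
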